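import Fermat.Agent.Modular.LevelRaising.Maps
import Fermat.Agent.Modular.Ihara.Hecke
import Fermat.Agent.Modular.HeckeAction
import Mathlib.LinearAlgebra.Dual.Lemmas

/-!
# Ihara's lemma gives an Eisenstein cokernel of the degeneracy map
-/

set_option autoImplicit false
set_option linter.style.haveILetI false

noncomputable section

open scoped MatrixGroups
open CongruenceSubgroup Matrix

namespace FermatLib.Modular.LevelRaising

open FermatLib.Modular.Degeneracy FermatLib.Modular.Residue FermatLib.Modular.Ihara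

variable {K : Type*} [Field K]

instance finiteDimensional_cuspidalHoms_gamma0 (N : ℕ) [NeZero N] :
    FiniteDimensional K (cuspidalHoms K (Gamma0 N) K) :=
  Module.Finite.equiv (cuspidalHomsEquiv N K K).symm

/-- A homomorphism which is trivial on `Γ(M)` does not see conjugation by `diag (ℓ, 1)` for
`ℓ ≡ 1 (mod M)`. -/
theorem degTwist_eq_degRes_of_vanishing {N ℓ M : ℕ} [NeZero ℓ] (hℓ : (ℓ : ZMod M) = 1)
    {A : Type*} [AddCommGroup A] {R : Type*} [Semiring R] [Module R A]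
    {φ : Additive (Gamma0 N) →+ A}
    (hφ : ∀ γ : Gamma0 N, (γ : SL(2, ℤ)) ∈ Gamma M → φ (Additive.ofMul γ) = 0) :
    degTwist N ℓ R A φ = degRes N ℓ R A φ := by
  refine AddMonoidHom.ext fun g => ?_
  obtain ⟨γ, rfl⟩ := Additive.ofMul.surjective g
  show φ (Additive.ofMul (degHom N ℓ γ)) =
    φ (Additive.ofMul (Subgroup.inclusion (Gamma0_mul_le_left N ℓ) γ))
  set a := degHom N ℓ γ
  set b := Subgroup.inclusion (Gamma0_mul_le_left N ℓ) γ
  have hmod : Matrix.SpecialLinearGroup.map (n := Fin 2) (Int.castRingHom (ZMod M)) a.1 =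
      Matrix.SpecialLinearGroup.map (n := Fin 2) (Int.castRingHom (ZMod M)) b.1 := by
    have e := congrArg (fun X : Matrix (Fin 2) (Fin 2) ℤ => X.map (Int.castRingHom (ZMod M)))
      (degHom_spec N ℓ γ)
    simp only [Matrix.map_mul] at e
    have h1 : (degMat ℓ).map (Int.castRingHom (ZMod M)) = 1 := by
      ext i j
      fin_cases i <;> fin_cases j <;> simp [degMat, hℓ]
    rw [h1, one_mul, mul_one] at e
    exact Subtype.ext e.symm
  have h0 := hφ (b⁻¹ * a) (by
    show Matrix.SpecialLinearGroup.map (n := Fin 2) (Int.castRingHom (ZMod M))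
      (b.1⁻¹ * a.1) = 1
    rw [map_mul, map_inv, hmod, inv_mul_cancel])
  rwa [ofMul_mul, ofMul_inv, map_add, map_neg, neg_add_eq_zero, eq_comm] at h0

/-- Pairing against a vector killed by Ihara's lemma does not distinguish `T ℓ` from `ℓ + 1`. -/
theorem cuspForm_heckeCuspOp_of_vanishing {N M : ℕ} [NeZero N] (ℓ : Nat.Primes)
    (hℓN : ¬ (ℓ : ℕ) ∣ N) (hℓ : ((ℓ : ℕ) : ZMod M) = 1)
    (x : cuspidalHoms K (Gamma0 N) K)
    (hx : ∀ γ : Gamma0 N, (γ : SL(2, ℤ)) ∈ Gamma M → x.1 (Additive.ofMul γ) = 0)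
    (z : cuspidalHoms K (Gamma0 N) K) :
    cuspForm neg_one_mem_Gamma0 x (heckeCuspOp K K N ℓ z) =
      (((ℓ : ℕ) : K) + 1) * cuspForm neg_one_mem_Gamma0 x z := by
  haveI : NeZero (ℓ : ℕ) := ⟨ℓ.2.ne_zero⟩
  haveI : Fact (ℓ : ℕ).Prime := ⟨ℓ.2⟩
  haveI : Fact (Nat.Coprime ℓ N) := ⟨ℓ.2.coprime_iff_not_dvd.2 hℓN⟩
  have hT : heckeCuspOp K K N ℓ z = cuspCores N ℓ K (cuspAL N ℓ K (cuspRes N ℓ K z)) := by
    refine Subtype.ext ?_
    simp only [coe_heckeCuspOp, coe_cuspCores, coe_cuspAL, coe_cuspRes, alOp_degRes,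
      degCores_degTwist]
    rfl
  have hxx : cuspAL N ℓ K (cuspRes N ℓ K x) = cuspRes N ℓ K x := Subtype.ext (by
    simp only [coe_cuspAL, coe_cuspRes, alOp_degRes]
    exact degTwist_eq_degRes_of_vanishing hℓ hx)
  have hdeg : cuspCores N ℓ K (cuspRes N ℓ K z) = ((ℓ : ℕ) + 1) • z := Subtype.ext (by
    simp only [coe_cuspCores, coe_cuspRes, degCores_degRes]
    rfl)
  rw [hT, cuspForm_cuspCores, ← cuspForm_cuspAL, cuspAL_cuspAL, hxx, ← cuspForm_cuspCores, hdeg,
    map_nsmul, nsmul_eq_mul]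
  push_cast
  rfl

variable {N q : ℕ} [NeZero N] [NeZero q] [Fact q.Prime] [Fact (Nat.Coprime q N)]

/-- A pair killed by the degeneracy map satisfies the hypothesis of Ihara's lemma. -/
theorem vanishing_of_degAlpha_eq_zero {F : Type*} [CommRing F]
    {x : cuspidalHoms F (Gamma0 N) F × cuspidalHoms F (Gamma0 N) F}
    (hx : degAlpha N q F x = 0) (γ : Gamma0 N) (hγ : (γ : SL(2, ℤ)) ∈ Gamma (iharaLevel N q)) :
    x.1.1 (Additive.ofMul γ) = 0 ∧ x.2.1 (Additive.ofMul γ) = 0 := by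
  refine ihara_vanishing (Nat.pos_of_ne_zero (NeZero.ne N)) (Fact.out) not_q_dvd_N
    (fun δ => ?_) γ hγ
  have h := congrArg (fun y : cuspidalHoms F (Gamma0 (N * q)) F => y.1 (Additive.ofMul δ)) hx
  simp only [coe_degAlpha, AddMonoidHom.add_apply, ZeroMemClass.coe_zero,
    AddMonoidHom.zero_apply] at h
  exact h

/-- The cokernel of the degeneracy map to level `N` is killed by `T ℓ - (ℓ + 1)` for every prime
`ℓ ≡ 1 (mod iharaLevel N q)` prime to the level. -/
theorem hecke_sub_mem_range_degBeta (ℓ : Nat.Primes) (hℓN : ¬ (ℓ : ℕ) ∣ N)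
    (hℓ : ((ℓ : ℕ) : ZMod (iharaLevel N q)) = 1)
    (z : cuspidalHoms K (Gamma0 N) K × cuspidalHoms K (Gamma0 N) K) :
    ((heckeCuspOp K K N ℓ z.1, heckeCuspOp K K N ℓ z.2) - (((ℓ : ℕ) : K) + 1) • z) ∈
      LinearMap.range (degBeta N q K) := by
  rw [← Subspace.forall_mem_dualAnnihilator_apply_eq_zero_iff]
  intro lam hlam
  obtain ⟨x1, hx1⟩ := cuspForm_surjective (K := K) neg_one_mem_Gamma0
    (lam ∘ₗ LinearMap.inl K (cuspidalHoms K (Gamma0 N) K) (cuspidalHoms K (Gamma0 N) K))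
  obtain ⟨x2, hx2⟩ := cuspForm_surjective (K := K) neg_one_mem_Gamma0
    (lam ∘ₗ LinearMap.inr K (cuspidalHoms K (Gamma0 N) K) (cuspidalHoms K (Gamma0 N) K))
  have hl : ∀ w, lam w = cuspForm neg_one_mem_Gamma0 x1 w.1 + cuspForm neg_one_mem_Gamma0 x2 w.2 :=
    fun w => by
      rw [hx1, hx2]
      simp only [LinearMap.comp_apply, LinearMap.inl_apply, LinearMap.inr_apply, ← map_add]
      simp
  have hα : degAlpha N q K (x1, x2) = 0 := by
    refine cuspForm_injective (K := K) neg_one_mem_Gamma0 ?_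
    rw [map_zero]
    refine LinearMap.ext fun y => ?_
    rw [cuspForm_degAlpha, LinearMap.zero_apply, ← hl]
    exact (Submodule.mem_dualAnnihilator _).1 hlam _ (LinearMap.mem_range_self _ y)
  have hv := vanishing_of_degAlpha_eq_zero hα
  rw [hl]
  simp only [Prod.fst_sub, Prod.snd_sub, Prod.smul_fst, Prod.smul_snd, map_sub, map_smul,
    smul_eq_mul]
  rw [cuspForm_heckeCuspOp_of_vanishing ℓ hℓN hℓ x1 (fun γ hγ => (hv γ hγ).1),
    cuspForm_heckeCuspOp_of_vanishing ℓ hℓN hℓ x2 (fun γ hγ => (hv γ hγ).2)]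
  ring

end FermatLib.Modular.LevelRaising
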