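import Fermat.Agent.Modular.LevelRaising.Maps
import Fermat.Agent.Modular.HeckeAction

/-!
# Hecke equivariance of the degeneracy maps and reduction of the coefficients
-/

set_option autoImplicit false
set_option linter.unusedSectionVars false

noncomputable section

open scoped MatrixGroups
open CongruenceSubgroup Matrix

namespace FermatLib.Modular.LevelRaising

open FermatLib.Modular.Degeneracy

attribute [local instance] cosetFintype

section Red

variable {N : ℕ} {A B : Type*} [CommRing A] [CommRing B]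

/-- Change of coefficients of cuspidal homomorphisms along a ring homomorphism. -/
def cuspMap (e : A →+* B) :
    cuspidalHoms A (Gamma0 N) A →+ cuspidalHoms B (Gamma0 N) B where
  toFun φ := ⟨e.toAddMonoidHom.comp φ.1, φ.2.comp _⟩
  map_zero' := Subtype.ext (AddMonoidHom.ext fun _ => map_zero e)
  map_add' φ ψ := Subtype.ext (AddMonoidHom.ext fun x => map_add e (φ.1 x) (ψ.1 x))

@[simp] theorem coe_cuspMap (e : A →+* B) (φ : cuspidalHoms A (Gamma0 N) A) :
    (cuspMap e φ).1 = e.toAddMonoidHom.comp φ.1 := rfl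

theorem cuspMap_heckeCuspAct [NeZero N] (e : A →+* B) (t : CuspForm.heckeAlgebra N 2 ∅)
    (φ : cuspidalHoms A (Gamma0 N) A) :
    cuspMap e (heckeCuspAct N A A t φ) = heckeCuspAct N B B t (cuspMap e φ) := by
  refine Subtype.ext ?_
  rw [coe_cuspMap, coe_heckeCuspAct_eq_int, coe_heckeCuspAct_eq_int (R := B)]
  exact (coe_heckeCuspAct_comp (R := ℤ) t e.toAddMonoidHom ⟨φ.1, φ.2⟩).symm

theorem cuspMap_cuspidalHoms_surjective [NeZero N] {e : A →+* B} (he : Function.Surjective e) :
    Function.Surjective (cuspMap (N := N) e) := by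
  intro φ
  choose v hv using fun i => he (cuspidalHomsEquiv N B B φ i)
  refine ⟨(cuspidalHomsEquiv N A A).symm v, (cuspidalHomsEquiv N B B).injective (funext fun i => ?_)⟩
  show e (cuspidalHomsEquiv N A A ((cuspidalHomsEquiv N A A).symm v) i) = _
  rw [LinearEquiv.apply_symm_apply, hv]

theorem exists_smul_of_cuspMap_eq_zero [NeZero N] {m : ℕ} {φ : cuspidalHoms ℤ (Gamma0 N) ℤ}
    (h : cuspMap (Int.castRingHom (ZMod m)) φ = 0) :
    ∃ ψ : cuspidalHoms ℤ (Gamma0 N) ℤ, φ = (m : ℤ) • ψ := by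
  have hz : ∀ i, ((cuspidalHomsEquiv N ℤ ℤ φ i : ℤ) : ZMod m) = 0 := fun i =>
    DFunLike.congr_fun (congrArg Subtype.val h) (Additive.ofMul (cuspBasisElt N i))
  choose k hk using fun i => (ZMod.intCast_zmod_eq_zero_iff_dvd _ _).1 (hz i)
  exact ⟨(cuspidalHomsEquiv N ℤ ℤ).symm k, (cuspidalHomsEquiv N ℤ ℤ).injective (funext fun i => by
    rw [map_smul, LinearEquiv.apply_symm_apply, hk i]; rfl)⟩

theorem extFun_comp {Γ : Subgroup SL(2, ℤ)} (e : A →+* B) (φ : Additive Γ →+ A) (g : SL(2, ℤ)) :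
    extFun (e.toAddMonoidHom.comp φ) g = e (extFun φ g) := by
  unfold extFun
  split_ifs with h
  · rfl
  · exact (map_zero e).symm

variable {q : ℕ} [NeZero N] [NeZero q] [Fact (Nat.Coprime q N)]

theorem cuspMap_cuspAL (e : A →+* B) (φ : cuspidalHoms A (Gamma0 (N * q)) A) :
    cuspMap e (cuspAL N q A φ) = cuspAL N q B (cuspMap e φ) := rfl

theorem cuspMap_cuspCores (e : A →+* B) (φ : cuspidalHoms A (Gamma0 (N * q)) A) :
    cuspMap e (cuspCores N q A φ) = cuspCores N q B (cuspMap e φ) := by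
  refine Subtype.ext (AddMonoidHom.ext fun g => ?_)
  obtain ⟨γ, rfl⟩ := Additive.ofMul.surjective g
  simp only [coe_cuspMap, coe_cuspCores, AddMonoidHom.comp_apply, degCores_apply,
    Residue.coresHom, map_sum, extFun_comp]
  rfl

theorem cuspMap_degBeta (e : A →+* B) (y : cuspidalHoms A (Gamma0 (N * q)) A) :
    (cuspMap e (degBeta N q A y).1, cuspMap e (degBeta N q A y).2) =
      degBeta N q B (cuspMap e y) := by
  simp [degBeta, cuspMap_cuspCores, cuspMap_cuspAL]

end Red

variable {N q : ℕ} [NeZero N] [NeZero q] [hq : Fact q.Prime] [Fact (Nat.Coprime q N)]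
  {A : Type*} [CommRing A]

theorem degAlpha_heckeCuspOp {ℓ : Nat.Primes} (hℓ : ¬ (ℓ : ℕ) ∣ N * q)
    (x : cuspidalHoms A (Gamma0 N) A × cuspidalHoms A (Gamma0 N) A) :
    heckeCuspOp A A (N * q) ℓ (degAlpha N q A x) =
      degAlpha N q A (heckeCuspOp A A N ℓ x.1, heckeCuspOp A A N ℓ x.2) :=
  Subtype.ext (by
    simp only [coe_heckeCuspOp, coe_degAlpha, map_add, degRes_heckeHomOp ℓ hℓ,
      degTwist_heckeHomOp ℓ hℓ])

theorem degBeta_heckeCuspOp {ℓ : Nat.Primes} (hℓ : ¬ (ℓ : ℕ) ∣ N * q)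
    (y : cuspidalHoms A (Gamma0 (N * q)) A) :
    degBeta N q A (heckeCuspOp A A (N * q) ℓ y) =
      (heckeCuspOp A A N ℓ (degBeta N q A y).1, heckeCuspOp A A N ℓ (degBeta N q A y).2) := by
  refine Prod.ext (Subtype.ext ?_) (Subtype.ext ?_) <;>
    simp only [degBeta, LinearMap.prod_apply, Function.prod, LinearMap.comp_apply, coe_cuspCores,
      coe_cuspAL, coe_heckeCuspOp, ← alOp_heckeHomOp ℓ hℓ, degCores_heckeHomOp ℓ hℓ]

/-- On the kernel of the degeneracy map to level `N` the square of `U q` is the identity. -/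
theorem heckeCuspOp_q_sq_of_degBeta_eq_zero {y : cuspidalHoms A (Gamma0 (N * q)) A}
    (hy : degBeta N q A y = 0) :
    heckeCuspOp A A (N * q) (qPrime q) (heckeCuspOp A A (N * q) (qPrime q) y) = y := by
  have h1 : ∀ z : cuspidalHoms A (Gamma0 (N * q)) A, cuspCores N q A (cuspAL N q A z) = 0 →
      heckeCuspOp A A (N * q) (qPrime q) z = - cuspAL N q A z := fun z hz => by
    have hz' : degCores N q A A (alOp N q A A z.1) = 0 := congrArg Subtype.val hz
    refine Subtype.ext ?_
    rw [coe_heckeCuspOp, heckeHomOp_q_eq, hz', map_zero, zero_sub]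
    rfl
  have hy1 : cuspCores N q A y = 0 := congrArg Prod.fst hy
  have hy2 : cuspCores N q A (cuspAL N q A y) = 0 := congrArg Prod.snd hy
  rw [h1 y hy2, map_neg, h1 _ (by rw [cuspAL_cuspAL]; exact hy1), cuspAL_cuspAL, neg_neg]

theorem degBeta_degAlpha (x : cuspidalHoms A (Gamma0 N) A × cuspidalHoms A (Gamma0 N) A) :
    degBeta N q A (degAlpha N q A x) =
      ((q + 1) • x.1 + heckeCuspOp A A N (qPrime q) x.2,
        heckeCuspOp A A N (qPrime q) x.1 + (q + 1) • x.2) := by
  refine Prod.ext (Subtype.ext ?_) (Subtype.ext ?_)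
  · simp only [degBeta, LinearMap.prod_apply, Function.prod, coe_cuspCores, coe_degAlpha, map_add,
      degCores_degRes, degCores_degTwist, Submodule.coe_add, coe_heckeCuspOp]
    rfl
  · simp only [degBeta, LinearMap.prod_apply, Function.prod, LinearMap.comp_apply, coe_cuspCores,
      coe_cuspAL, coe_degAlpha, map_add, alOp_degRes, alOp_degTwist, degCores_degRes,
      degCores_degTwist, Submodule.coe_add, coe_heckeCuspOp]
    rfl

end FermatLib.Modular.LevelRaising
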