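import Fermat.Agent.Modular.DegeneracyComm
import Fermat.Agent.Modular.Residue.CuspidalForm
import Fermat.Agent.Modular.Gamma0Homs

/-!
# The two degeneracy maps on cuspidal homomorphisms, and their adjointness
-/

set_option autoImplicit false
set_option linter.unusedSectionVars false

noncomputable section

open scoped MatrixGroups
open CongruenceSubgroup Matrix

namespace FermatLib.Modular.LevelRaising

open FermatLib.Modular.Degeneracy FermatLib.Modular.Residue

local notation "M2Z" => Matrix (Fin 2) (Fin 2) ℤ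

variable {N q : ℕ} [NeZero N] [NeZero q] [Fact (Nat.Coprime q N)]

attribute [local instance] cosetFintype

theorem alHom_neg (γ : Gamma0 (N * q)) (h : -(γ : SL(2, ℤ)) ∈ Gamma0 (N * q)) :
    (alHom N q ⟨-(γ : SL(2, ℤ)), h⟩ : SL(2, ℤ)) = -(alHom N q γ : SL(2, ℤ)) := by
  refine Subtype.ext (matMul_right_cancel (δ := alMat N q)
    (by rw [det_alMat]; exact natCast_q_ne_zero q) ?_)
  rw [← alHom_spec, Matrix.SpecialLinearGroup.coe_neg, Matrix.SpecialLinearGroup.coe_neg,
    Matrix.mul_neg, Matrix.neg_mul, ← alHom_spec]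

variable (N q) in
/-- The Atkin–Lehner matrix in `GL(2, ℚ)`. -/
def alGL : GL (Fin 2) ℚ :=
  Matrix.GeneralLinearGroup.mkOfDetNeZero ((alMat N q).map (Int.cast : ℤ → ℚ)) (by
    have h : ((alMat N q).map (Int.cast : ℤ → ℚ)).det = ((alMat N q).det : ℚ) :=
      ((Int.castRingHom ℚ).map_det (alMat N q)).symm
    rw [h, det_alMat]
    simp [NeZero.ne q])

theorem alGL_mul_mapGL (γ : Gamma0 (N * q)) :
    alGL N q * Matrix.SpecialLinearGroup.mapGL ℚ (γ : SL(2, ℤ)) =
      Matrix.SpecialLinearGroup.mapGL ℚ (alHom N q γ : SL(2, ℤ)) * alGL N q := by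
  refine Units.ext ?_
  have h := congrArg (fun X : M2Z => X.map (Int.castRingHom ℚ)) (alHom_spec N q γ)
  simp only [Matrix.map_mul] at h
  exact h

open Classical in
variable (N q) in
/-- The Atkin–Lehner automorphism with its action on the cusps. -/
def alCuspAut : CuspAut (Gamma0 (N * q)) where
  aut g := if h : g ∈ Gamma0 (N * q) then (alHom N q ⟨g, h⟩ : SL(2, ℤ)) else g
  pt := MulAction.toPerm (alGL N q)
  mem γ hγ := by simp only [dif_pos hγ]; exact (alHom N q ⟨γ, hγ⟩).2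
  map_mul a ha b hb := by
    simp only [dif_pos ha, dif_pos hb, dif_pos (mul_mem ha hb), ← Subgroup.coe_mul, ← map_mul]
    rfl
  map_neg a ha := by
    have hn : -a ∈ Gamma0 (N * q) := (neg_mem_iff' neg_one_mem_Gamma0).2 ha
    simp only [dif_pos ha, dif_pos hn]
    exact alHom_neg ⟨a, ha⟩ hn
  surj γ hγ := by
    refine ⟨(alHom N q ((alV N q)⁻¹ * ⟨γ, hγ⟩ * alV N q) : SL(2, ℤ)), (alHom N q _).2, ?_⟩
    simp only [dif_pos (alHom N q ((alV N q)⁻¹ * ⟨γ, hγ⟩ * alV N q)).2, Subtype.coe_eta,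
      alHom_alHom]
    simp [mul_assoc]
  smul γ hγ x := by
    simp only [dif_pos hγ, MulAction.toPerm_apply]
    show alGL N q • (Matrix.SpecialLinearGroup.mapGL ℚ γ • x) =
      Matrix.SpecialLinearGroup.mapGL ℚ (alHom N q ⟨γ, hγ⟩ : SL(2, ℤ)) • (alGL N q • x)
    rw [← mul_smul, ← mul_smul, ← alGL_mul_mapGL]
  pos γ hγ hp := by
    simp only [dif_pos hγ]
    exact isPos_of_mul_eq (A := alMat N q)
      (by rw [det_alMat]; exact_mod_cast Nat.pos_of_ne_zero (NeZero.ne q))
      (alHom_spec N q ⟨γ, hγ⟩).symm hp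

theorem extFun_alOp_eq {R : Type*} [Semiring R] {A : Type*} [AddCommGroup A] [Module R A]
    (φ : Additive (Gamma0 (N * q)) →+ A) {g : SL(2, ℤ)} (hg : g ∈ Gamma0 (N * q)) :
    extFun (alOp N q R A φ) g = extFun φ ((alCuspAut N q).aut g) := by
  rw [extFun_of_mem _ hg, extFun_of_mem _ ((alCuspAut N q).mem g hg)]
  show φ (Additive.ofMul (alHom N q ⟨g, hg⟩)) = _
  congr 2
  refine Subtype.ext ?_
  simp only [alCuspAut, dif_pos hg]

section Preserve

variable {R : Type*} [Semiring R] {A : Type*} [AddCommGroup A] [Module R A]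

theorem degRes_mem_cuspidalHoms {φ : Additive (Gamma0 N) →+ A}
    (hφ : φ ∈ cuspidalHoms R (Gamma0 N) A) :
    degRes N q R A φ ∈ cuspidalHoms R (Gamma0 (N * q)) A :=
  fun γ hγ => hφ (Subgroup.inclusion (Gamma0_mul_le_left N q) γ) hγ

theorem alOp_mem_cuspidalHoms {φ : Additive (Gamma0 (N * q)) →+ A}
    (hφ : φ ∈ cuspidalHoms R (Gamma0 (N * q)) A) :
    alOp N q R A φ ∈ cuspidalHoms R (Gamma0 (N * q)) A := by
  intro γ hγ
  refine hφ (alHom N q γ) ?_
  rw [trace_eq_of_mul_eq (by rw [det_alMat]; exact natCast_q_ne_zero q)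
    (alHom_spec N q γ).symm]
  exact hγ

end Preserve

variable {F : Type*} [CommRing F]

theorem degCores_mem_cuspidalHoms {φ : Additive (Gamma0 (N * q)) →+ F}
    (hφ : φ ∈ cuspidalHoms F (Gamma0 (N * q)) F) :
    degCores N q F F φ ∈ cuspidalHoms F (Gamma0 N) F :=
  isCuspidalHom_of_isPar (isPar_coresHom (Gamma0_mul_le_left N q) (isPar_extFun hφ))
    fun γ => degCores_apply N q F F φ γ

variable (N q F) in
/-- The Atkin–Lehner operator on cuspidal homomorphisms. -/
def cuspAL : cuspidalHoms F (Gamma0 (N * q)) F →ₗ[F] cuspidalHoms F (Gamma0 (N * q)) F :=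
  (alOp N q F F).restrict fun _ h => alOp_mem_cuspidalHoms h

variable (N q F) in
/-- Restriction of cuspidal homomorphisms. -/
def cuspRes : cuspidalHoms F (Gamma0 N) F →ₗ[F] cuspidalHoms F (Gamma0 (N * q)) F :=
  (degRes N q F F).restrict fun _ h => degRes_mem_cuspidalHoms h

variable (N q F) in
/-- Corestriction of cuspidal homomorphisms. -/
def cuspCores : cuspidalHoms F (Gamma0 (N * q)) F →ₗ[F] cuspidalHoms F (Gamma0 N) F :=
  (degCores N q F F).restrict fun _ h => degCores_mem_cuspidalHoms h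

variable (N q F) in
/-- The degeneracy map from two copies of level `N`. -/
def degAlpha : cuspidalHoms F (Gamma0 N) F × cuspidalHoms F (Gamma0 N) F →ₗ[F]
    cuspidalHoms F (Gamma0 (N * q)) F :=
  (cuspRes N q F).coprod (cuspAL N q F ∘ₗ cuspRes N q F)

variable (N q F) in
/-- The degeneracy map to two copies of level `N`. -/
def degBeta : cuspidalHoms F (Gamma0 (N * q)) F →ₗ[F]
    cuspidalHoms F (Gamma0 N) F × cuspidalHoms F (Gamma0 N) F :=
  (cuspCores N q F).prod (cuspCores N q F ∘ₗ cuspAL N q F)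

@[simp] theorem coe_cuspAL (φ : cuspidalHoms F (Gamma0 (N * q)) F) :
    (cuspAL N q F φ).1 = alOp N q F F φ.1 := rfl

@[simp] theorem coe_cuspRes (φ : cuspidalHoms F (Gamma0 N) F) :
    (cuspRes N q F φ).1 = degRes N q F F φ.1 := rfl

@[simp] theorem coe_cuspCores (φ : cuspidalHoms F (Gamma0 (N * q)) F) :
    (cuspCores N q F φ).1 = degCores N q F F φ.1 := rfl

theorem coe_degAlpha (x : cuspidalHoms F (Gamma0 N) F × cuspidalHoms F (Gamma0 N) F) :
    (degAlpha N q F x).1 = degRes N q F F x.1.1 + degTwist N q F F x.2.1 := by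
  simp [degAlpha, alOp_degRes]

theorem cuspAL_cuspAL (φ : cuspidalHoms F (Gamma0 (N * q)) F) :
    cuspAL N q F (cuspAL N q F φ) = φ := Subtype.ext (alOp_alOp N q F F φ.1)

theorem cuspForm_cuspAL (φ ψ : cuspidalHoms F (Gamma0 (N * q)) F) :
    cuspForm neg_one_mem_Gamma0 (cuspAL N q F φ) (cuspAL N q F ψ) =
      cuspForm neg_one_mem_Gamma0 φ ψ := by
  rw [cuspForm_apply, cuspForm_apply,
    ← (alCuspAut N q).cuspPair_comp neg_one_mem_Gamma0 (isPar_extFun φ.2) (isPar_extFun ψ.2)]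
  exact cuspPair_congr _ ((alCuspAut N q).isPar_comp neg_one_mem_Gamma0 (isPar_extFun φ.2))
    ((alCuspAut N q).isPar_comp neg_one_mem_Gamma0 (isPar_extFun ψ.2))
    (fun g hg => extFun_alOp_eq (R := F) φ.1 hg) (fun g hg => extFun_alOp_eq (R := F) ψ.1 hg)

theorem cuspForm_cuspCores (φ : cuspidalHoms F (Gamma0 N) F)
    (ψ : cuspidalHoms F (Gamma0 (N * q)) F) :
    cuspForm neg_one_mem_Gamma0 φ (cuspCores N q F ψ) =
      cuspForm neg_one_mem_Gamma0 (cuspRes N q F φ) ψ := by
  have hle := Gamma0_mul_le_left N q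
  rw [cuspForm_apply, cuspForm_apply]
  rw [cuspPair_congr neg_one_mem_Gamma0 (μ := extFun φ.1) (μ' := extFun φ.1)
    (c := coresHom (Gamma0 (N * q)) (Gamma0 N) (extFun ψ.1)) (isPar_extFun φ.2)
    (isPar_coresHom hle (isPar_extFun ψ.2)) (fun _ _ => rfl)
    (fun g hg => by rw [extFun_of_mem _ hg]; rfl)]
  rw [cuspPair_cores neg_one_mem_Gamma0 hle neg_one_mem_Gamma0 (isPar_extFun φ.2)
    (isPar_extFun ψ.2)]
  exact (cuspPair_congr _ ((isPar_extFun φ.2).mono hle) (isPar_extFun ψ.2)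
    (fun g hg => by rw [extFun_of_mem _ hg, extFun_of_mem _ (hle hg)]; rfl)
    (fun _ _ => rfl)).symm

/-- The two degeneracy maps are adjoint. -/
theorem cuspForm_degAlpha (x : cuspidalHoms F (Gamma0 N) F × cuspidalHoms F (Gamma0 N) F)
    (y : cuspidalHoms F (Gamma0 (N * q)) F) :
    cuspForm neg_one_mem_Gamma0 (degAlpha N q F x) y =
      cuspForm neg_one_mem_Gamma0 x.1 (degBeta N q F y).1 +
        cuspForm neg_one_mem_Gamma0 x.2 (degBeta N q F y).2 := by
  conv_lhs => rw [degAlpha, LinearMap.coprod_apply, map_add, LinearMap.add_apply,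
    LinearMap.comp_apply, ← cuspForm_cuspCores]
  congr 1
  show _ = cuspForm _ x.2 (cuspCores N q F (cuspAL N q F y))
  rw [cuspForm_cuspCores, ← cuspForm_cuspAL (cuspRes N q F x.2) (cuspAL N q F y), cuspAL_cuspAL]

end FermatLib.Modular.LevelRaising
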