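import Fermat.Agent.MLT.ResidualCurve
import Fermat.Agent.MLT.ModTransfer.Torsion
import Fermat.Agent.EC.FrobeniusTrace
import Fermat.Agent.Galois.FrobeniusDensity
import Fermat.Agent.Descent.HesseSwitch

/-!
# An irreducible odd mod `p` representation is not Eisenstein on a cyclotomic subgroup
-/

set_option autoImplicit false
set_option linter.style.haveILetI false
set_option linter.unusedSimpArgs false

noncomputable section

namespace FermatLib.Modular.LevelRaising

section Linear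

variable {k : Type*} [Field k]

theorem scalar_mul_eq_zero {x y z a b c : k} (eM : x * x + y * z = 0) (eN : a * a + b * c = 0)
    (h : (x * a + y * c) + (z * b + x * a) = 0) :
    x * a + y * c = 0 ∧ x * b - y * a = 0 ∧ z * a - x * c = 0 ∧ z * b + x * a = 0 := by
  have h00 : x * a + y * c = 0 :=
    pow_eq_zero_iff two_ne_zero |>.1
      (by linear_combination (a ^ 2) * eM + (y * c) * h - (y * z) * eN)
  exact ⟨h00,
    pow_eq_zero_iff two_ne_zero |>.1
      (by linear_combination (b ^ 2) * eM + (y ^ 2) * eN - b * y * h),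
    pow_eq_zero_iff two_ne_zero |>.1
      (by linear_combination (c ^ 2) * eM + (z ^ 2) * eN - c * z * h),
    by linear_combination h - h00⟩

/-- Two square-zero `2 × 2` matrices whose product has trace zero have product zero. -/
theorem mul_eq_zero_of_sq_eq_zero {M N : Matrix (Fin 2) (Fin 2) k} (hM : M * M = 0)
    (hN : N * N = 0) (htrM : M.trace = 0) (htrN : N.trace = 0) (h : (M * N).trace = 0) :
    M * N = 0 := by
  have eM := congrFun (congrFun hM 0) 0
  have eN := congrFun (congrFun hN 0) 0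
  simp only [Matrix.mul_apply, Matrix.zero_apply, Fin.sum_univ_two] at eM eN
  simp only [Matrix.trace_fin_two, Matrix.mul_apply, Fin.sum_univ_two] at htrM htrN h
  have hM11 : M 1 1 = -M 0 0 := by linear_combination htrM
  have hN11 : N 1 1 = -N 0 0 := by linear_combination htrN
  rw [hM11, hN11] at h
  obtain ⟨h00, h01, h10, h11⟩ := scalar_mul_eq_zero eM eN (by linear_combination h)
  ext i j
  fin_cases i <;> fin_cases j <;>
    simp only [Fin.zero_eta, Fin.mk_one, Fin.isValue, Matrix.mul_apply, Fin.sum_univ_two,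
      Matrix.zero_apply, hM11, hN11]
  · linear_combination h00
  · linear_combination h01
  · linear_combination h10
  · linear_combination h11

variable {G : Type*} [Group G] {V : Type*} [AddCommGroup V] [Module k V]

/-- An irreducible two-dimensional representation which is odd and whose restriction to a normal
subgroup with abelian quotient is unipotent does not exist. -/
theorem false_of_unipotent_restrict [FiniteDimensional k V] (hV : Module.finrank k V = 2)
    (h2 : (2 : k) ≠ 0) (ρ : G →* Module.End k V)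
    (hirr : ∀ U : Submodule k V, (∀ g, ∀ v ∈ U, ρ g v ∈ U) → U = ⊥ ∨ U = ⊤)
    (H : Subgroup G) [H.Normal] (hcomm : ∀ g g' : G, g * g' * g⁻¹ * g'⁻¹ ∈ H)
    (huni : ∀ g ∈ H, (ρ g - 1) * (ρ g - 1) = 0)
    {c : G} (hc : c * c = 1) (hdet : LinearMap.det (ρ c) = -1) : False := by
  haveI : Nontrivial V := Module.nontrivial_of_finrank_eq_succ hV
  have htr : ∀ f : Module.End k V, f * f = 0 → LinearMap.trace k V f = 0 := fun f hf =>
    ((LinearMap.isNilpotent_trace_of_isNilpotent ⟨2, by rw [sq]; exact hf⟩).eq_zero)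
  -- a nonzero vector fixed by `H`
  have hfix : ∃ v : V, v ≠ 0 ∧ ∀ g ∈ H, ρ g v = v := by
    by_cases htriv : ∀ g ∈ H, ρ g = 1
    · obtain ⟨v, hv⟩ := exists_ne (0 : V)
      exact ⟨v, hv, fun g hg => by rw [htriv g hg, Module.End.one_apply]⟩
    push Not at htriv
    obtain ⟨g₀, hg₀, hne⟩ := htriv
    obtain ⟨w, hw⟩ : ∃ w, (ρ g₀ - 1) w ≠ 0 := by
      by_contra hall
      push Not at hall
      exact hne (sub_eq_zero.1 (LinearMap.ext hall))
    refine ⟨_, hw, fun g hg => ?_⟩
    suffices hz : (ρ g - 1) * (ρ g₀ - 1) = 0 by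
      have := LinearMap.congr_fun hz w
      rw [Module.End.mul_apply, LinearMap.zero_apply, LinearMap.sub_apply, Module.End.one_apply,
        sub_eq_zero] at this
      exact this
    have hprod : LinearMap.trace k V ((ρ g - 1) * (ρ g₀ - 1)) = 0 := by
      have e : (ρ g - 1) * (ρ g₀ - 1) = (ρ (g * g₀) - 1) - (ρ g - 1) - (ρ g₀ - 1) := by
        rw [map_mul]; noncomm_ring
      rw [e, map_sub, map_sub, htr _ (huni _ (H.mul_mem hg hg₀)), htr _ (huni _ hg),
        htr _ (huni _ hg₀)]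
      simp
    let b := Module.finBasisOfFinrankEq k V hV
    let T := LinearMap.toMatrixAlgEquiv b
    apply T.injective
    rw [map_mul, map_zero]
    refine mul_eq_zero_of_sq_eq_zero ?_ ?_ ?_ ?_ ?_
    · rw [← map_mul, huni _ hg, map_zero]
    · rw [← map_mul, huni _ hg₀, map_zero]
    · exact (LinearMap.trace_eq_matrix_trace k b _).symm.trans (htr _ (huni _ hg))
    · exact (LinearMap.trace_eq_matrix_trace k b _).symm.trans (htr _ (huni _ hg₀))
    · rw [← map_mul]
      exact (LinearMap.trace_eq_matrix_trace k b _).symm.trans hprod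
  -- hence `H` acts trivially
  obtain ⟨v, hv, hvfix⟩ := hfix
  let U : Submodule k V := ⨅ g ∈ H, LinearMap.ker (ρ g - 1)
  have hmem : ∀ x, x ∈ U ↔ ∀ g ∈ H, ρ g x = x := fun x => by
    simp only [U, Submodule.mem_iInf, LinearMap.mem_ker, LinearMap.sub_apply,
      Module.End.one_apply, sub_eq_zero]
  have hUtop : U = ⊤ := by
    refine (hirr U fun g x hx => ?_).resolve_left fun h => hv ?_
    · rw [hmem] at hx ⊢
      intro h hh
      have hconj : g⁻¹ * h * g ∈ H := by simpa using ‹H.Normal›.conj_mem h hh g⁻¹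
      conv_rhs => rw [← hx _ hconj]
      rw [← Module.End.mul_apply, ← Module.End.mul_apply, ← map_mul, ← map_mul]
      congr 2
      group
    · simpa [h] using (hmem v).2 hvfix
  have htriv : ∀ g ∈ H, ρ g = 1 := fun g hg => LinearMap.ext fun x => by
    rw [Module.End.one_apply]
    exact (hmem x).1 (hUtop ▸ Submodule.mem_top) g hg
  have hab : ∀ g g' : G, ρ g * ρ g' = ρ g' * ρ g := fun g g' => by
    rw [← map_mul, ← map_mul, show g * g' = (g * g' * g⁻¹ * g'⁻¹) * (g' * g) by group, map_mul,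
      htriv _ (hcomm g g'), one_mul]
  have hcc : ρ c * ρ c = 1 := by rw [← map_mul, hc, map_one]
  rcases hirr (LinearMap.ker (ρ c - 1)) (fun g x hx => by
    simp only [LinearMap.mem_ker, LinearMap.sub_apply, Module.End.one_apply, sub_eq_zero] at hx ⊢
    rw [← Module.End.mul_apply, hab, Module.End.mul_apply, hx]) with h0 | h0
  · have hneg : ρ c = -1 := LinearMap.ext fun x => by
      have hx : ρ c x + x ∈ LinearMap.ker (ρ c - 1) := by
        simp only [LinearMap.mem_ker, LinearMap.sub_apply, Module.End.one_apply, map_add]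
        rw [← Module.End.mul_apply, hcc, Module.End.one_apply]
        abel
      rw [h0, Submodule.mem_bot, add_eq_zero_iff_eq_neg] at hx
      rw [hx]
      rfl
    rw [hneg, show (-1 : Module.End k V) = (-1 : k) • 1 by simp, LinearMap.det_smul, hV,
      map_one] at hdet
    exact h2 (by linear_combination hdet)
  · have hone : ρ c = 1 := sub_eq_zero.1 (LinearMap.ker_eq_top.1 h0)
    rw [hone, map_one] at hdet
    exact h2 (by linear_combination hdet)

end Linear

section Curve

open WeierstrassCurve WeierstrassCurve.Affine.Point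
open scoped WeierstrassCurve.Affine

local notation "Ω" => AlgebraicClosure ℚ
local notation "Γℚ" => (AlgebraicClosure ℚ ≃ₐ[ℚ] AlgebraicClosure ℚ)

/-- Irreducibility passes to an integral model. -/
theorem galoisRepIsIrreducible_integralModel {E : WeierstrassCurve ℚ} {W : WeierstrassCurve ℤ}
    (hW : W.IsIntegralModelOf E) {p : ℕ}
    (h : GaloisRepIsIrreducible (K := Ω) ℚ E p) :
    GaloisRepIsIrreducible (K := Ω) ℚ (W.map (Int.castRingHom ℚ)) p := by
  obtain ⟨C, hC⟩ := hW
  obtain ⟨e, he⟩ := Descent.exists_torsion_equiv_of_variableChange E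
    (W.map (Int.castRingHom ℚ)) C hC p
  refine Descent.galoisRepIsIrreducible_of_addEquiv e.symm (fun σ P => e.injective ?_) h
  rw [he, AddEquiv.apply_symm_apply, AddEquiv.apply_symm_apply]

/-- For an irreducible `E[p]`, `p` odd, there are primes `ℓ ≡ 1 (mod m)` with
`a ℓ ≢ ℓ + 1 (mod p)`. -/
theorem exists_prime_apOfModel_ne {W : WeierstrassCurve ℤ} (hΔ : W.Δ ≠ 0) {p : ℕ} [Fact p.Prime]
    (hp2 : p ≠ 2) (hirr : GaloisRepIsIrreducible (K := Ω) ℚ (W.map (Int.castRingHom ℚ)) p)
    {m : ℕ} (hm : 0 < m) (hpm : p ∣ m) (S : Finset ℕ) :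
    ∃ ℓ : ℕ, ℓ.Prime ∧ ℓ ∉ S ∧ W.IsGoodPrimeFor ℓ ∧ (ℓ : ZMod m) = 1 ∧
      ((W.apOfModel ℓ : ℤ) : ZMod p) ≠ (ℓ : ZMod p) + 1 := by
  classical
  by_contra hcon
  push Not at hcon
  haveI : NeZero m := ⟨hm.ne'⟩
  haveI : NeZero ((m : ℕ) : Ω) := ⟨Nat.cast_ne_zero.2 hm.ne'⟩
  have := MLT.isElliptic_map_intCast hΔ
  have := MLT.finite_torsion (p := p) hΔ (Fact.out : p.Prime).ne_zero
  obtain ⟨ζ, hζ⟩ := HasEnoughRootsOfUnity.exists_primitiveRoot Ω m
  set V := Submodule.torsionBy ℤ ((W.map (Int.castRingHom ℚ))⁄Ω).Point (p : ℤ) with hVdef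
  set ρ : Γℚ →* Module.End (ZMod p) V :=
    galoisRepModuleEnd ℚ (W.map (Int.castRingHom ℚ)) p with hρ
  obtain ⟨L, hL, hLρ⟩ := EC.galoisFactorsThroughFiniteLevel_torsion (W.map (Int.castRingHom ℚ))
    (Fact.out : p.Prime).ne_zero
  haveI := hL
  haveI : FiniteDimensional ℚ (IntermediateField.adjoin ℚ {ζ}) :=
    IntermediateField.adjoin.finiteDimensional ((AlgebraicClosure.isAlgebraic ℚ).isAlgebraic ζ).isIntegral
  set L' := L ⊔ IntermediateField.adjoin ℚ {ζ}
  have hζL : ζ ∈ L' := le_sup_right (a := L) (IntermediateField.mem_adjoin_simple_self ℚ ζ)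
  have hρL : ∀ u v : Γℚ, (∀ x ∈ L', u x = v x) → ρ u = ρ v := by
    intro u v h
    have h1 : ρ (u⁻¹ * v) = 1 := hLρ _ fun x hx => by
      rw [AlgEquiv.mul_apply, ← h x (le_sup_left (b := IntermediateField.adjoin ℚ {ζ}) hx),
        ← AlgEquiv.mul_apply, inv_mul_cancel, AlgEquiv.one_apply]
    rw [show v = u * (u⁻¹ * v) by group, map_mul ρ u, h1, mul_one]
  -- the fixer of the `m`-th roots of unity
  have hact : ∀ g : Γℚ, ∃ i, g ζ = ζ ^ i := fun g => by
    obtain ⟨i, -, hi⟩ := hζ.eq_pow_of_pow_eq_one (ξ := g ζ)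
      (by rw [← map_pow, hζ.pow_eq_one, map_one])
    exact ⟨i, hi.symm⟩
  let H : Subgroup Γℚ := MulAction.stabilizer Γℚ ζ
  have hmemH : ∀ g : Γℚ, g ∈ H ↔ g ζ = ζ := fun g => MulAction.mem_stabilizer_iff
  haveI : H.Normal := ⟨fun g hg t => by
    rw [hmemH] at hg ⊢
    obtain ⟨i, hi⟩ := hact t⁻¹
    rw [AlgEquiv.mul_apply, AlgEquiv.mul_apply, hi, map_pow, hg, ← hi, ← AlgEquiv.mul_apply,
      mul_inv_cancel, AlgEquiv.one_apply]⟩
  have hcomm : ∀ g g' : Γℚ, g * g' * g⁻¹ * g'⁻¹ ∈ H := fun g g' => by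
    obtain ⟨i, hi⟩ := hact g
    obtain ⟨j, hj⟩ := hact g'
    have hsw : (g * g') ζ = (g' * g) ζ := by
      rw [AlgEquiv.mul_apply, AlgEquiv.mul_apply, hj, hi, map_pow, map_pow, hi, hj, ← pow_mul,
        ← pow_mul, mul_comm]
    rw [hmemH, show g * g' * g⁻¹ * g'⁻¹ = (g * g') * (g' * g)⁻¹ by group]
    obtain ⟨r, hr⟩ := hact (g' * g)⁻¹
    rw [AlgEquiv.mul_apply, hr, map_pow, hsw, ← map_pow, ← hr, ← AlgEquiv.mul_apply,
      mul_inv_cancel, AlgEquiv.one_apply]
  have hV : Module.finrank (ZMod p) V = 2 := MLT.finrank_torsion hΔ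
  -- unipotence on `H`
  have huni : ∀ g ∈ H, (ρ g - 1) * (ρ g - 1) = 0 := by
    intro g hg
    obtain ⟨ℓ, hℓ, hℓS, A, hA, σ, hσ, a, b, ha, hb⟩ := Galois.exists_isFrobeniusAt_agreeOn L' g
      (S ∪ {p} ∪ W.Δ.natAbs.primeFactors ∪ m.primeFactors)
    simp only [Finset.mem_union, Finset.mem_singleton, not_or] at hℓS
    have hgood : W.IsGoodPrimeFor ℓ := fun hd =>
      hℓS.1.2 (hℓ.mem_primeFactors (Int.natCast_dvd.1 hd) (by simpa using hΔ))
    have hℓm : ¬ ℓ ∣ m := fun hd => hℓS.2 (hℓ.mem_primeFactors hd hm.ne')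
    have hσζ : σ ζ = ζ := by
      rw [ha ζ hζL]
      exact (hmemH _).1 (H.pow_mem hg a)
    have hℓ1 : (ℓ : ZMod m) = 1 := by
      have h1 := Galois.apply_eq_pow_of_isFrobeniusAt A hℓ hA hℓm hσ hζ
      rw [hσζ] at h1
      have h2 : ℓ ≡ 1 [MOD m] := hζ.pow_inj (Nat.mod_lt _ hm) (Nat.mod_lt _ hm) (by
        rw [← pow_eq_pow_mod ℓ hζ.pow_eq_one, ← pow_eq_pow_mod 1 hζ.pow_eq_one, pow_one, ← h1])
      have := (ZMod.natCast_eq_natCast_iff _ _ _).2 h2
      simpa using this
    have hℓp : (ℓ : ZMod p) = 1 := by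
      have := congrArg (ZMod.castHom hpm (ZMod p)) hℓ1
      rwa [map_natCast, map_one] at this
    have hchar := EC.charpoly_galoisRepModuleEnd_frobenius hℓ hgood hA hσ hℓS.1.1.2
    rw [hcon ℓ hℓ hℓS.1.1.1 hgood hℓ1, hℓp] at hchar
    have hzero : (ρ σ - 1) * (ρ σ - 1) = 0 := by
      have h3 := LinearMap.aeval_self_charpoly (ρ σ)
      rw [hρ, hchar] at h3
      simp only [map_add, map_sub, map_mul, map_pow, map_one, Polynomial.aeval_X,
        ← hρ] at h3
      rw [← h3]
      noncomm_ring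
    rw [← hρL _ _ hb, map_pow]
    conv_lhs => lhs; rw [← geom_sum_mul (ρ σ) b]
    rw [← mul_geom_sum (ρ σ) b, mul_assoc, ← mul_assoc (ρ σ - 1) (ρ σ - 1), hzero, zero_mul,
      mul_zero]
  obtain ⟨c, hc, hc1⟩ := MLT.exists_involution
  refine false_of_unipotent_restrict hV ?_ ρ (fun U hU => hirr.2 U hU) H hcomm huni hc ?_
  · intro h2
    have : ((2 : ℕ) : ZMod p) = 0 := by exact_mod_cast h2
    rw [ZMod.natCast_eq_zero_iff] at this
    exact hp2 ((Nat.prime_dvd_prime_iff_eq Fact.out Nat.prime_two).mp this)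
  · rw [hρ, MLT.det_torsion_eq_cycloChar hΔ, Galois.cycloChar_involution p hc hc1]

end Curve

end FermatLib.Modular.LevelRaising
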