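import Fermat.Agent.Modular.HeckeAction
import Fermat.Agent.Modular.HeckeFinite
import Fermat.Agent.Modular.IntStruct
import Fermat.Agent.Basic.EigenformLift
import Mathlib.RingTheory.Ideal.AssociatedPrime.Localization
import Mathlib.LinearAlgebra.Matrix.Charpoly.LinearMap

/-!
# Eigenclasses in `Hom_cusp(Γ₀(N), 𝔽_p)` attached to primes of the Hecke algebra
-/

set_option autoImplicit false
set_option linter.style.haveILetI false

noncomputable section

open scoped MatrixGroups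
open CongruenceSubgroup

namespace FermatLib.Modular.LevelRaising

theorem span_natCast_isMaximal {p : ℕ} (hp : p.Prime) : (Ideal.span {(p : ℤ)}).IsMaximal :=
  PrincipalIdealRing.isMaximal_of_irreducible (Nat.prime_iff_prime_int.1 hp).irreducible

theorem isMaximal_of_natCast_mem {T : Type*} [CommRing T] [Algebra.IsIntegral ℤ T] {p : ℕ}
    (hp : p.Prime) (P : Ideal T) [P.IsPrime] (hpP : (p : T) ∈ P) : P.IsMaximal := by
  refine Ideal.isMaximal_of_isIntegral_of_isMaximal_comap (R := ℤ) P ?_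
  haveI := span_natCast_isMaximal hp
  have hle : Ideal.span {(p : ℤ)} ≤ P.comap (algebraMap ℤ T) := by
    rw [Ideal.span_singleton_le_iff_mem, Ideal.mem_comap, map_natCast]
    exact hpP
  rw [← ‹(Ideal.span {(p : ℤ)}).IsMaximal›.eq_of_le
    (Ideal.IsPrime.comap (algebraMap ℤ T)).ne_top hle]
  infer_instance

/-- A maximal ideal in the support of a finite module annihilated by `p` kills a nonzero
element. -/
theorem exists_ne_zero_smul_eq_zero {T V : Type*} [CommRing T] [IsNoetherianRing T]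
    [Algebra.IsIntegral ℤ T] [AddCommGroup V] [Module T V] [Module.Finite T V] {p : ℕ}
    (hp : p.Prime) (hpV : ∀ v : V, (p : T) • v = 0) (J : Ideal T) [J.IsPrime]
    (hJ : Module.annihilator T V ≤ J) : ∃ v : V, v ≠ 0 ∧ ∀ t ∈ J, t • v = 0 := by
  obtain ⟨P, hP, hPJ⟩ := Ideal.exists_minimalPrimes_le hJ
  haveI := hP.isPrime
  haveI := isMaximal_of_natCast_mem hp P (hP.1.2 (Module.mem_annihilator.2 hpV))
  obtain rfl : P = J := ‹P.IsMaximal›.eq_of_le ‹J.IsPrime›.ne_top hPJ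
  obtain ⟨-, v, hv⟩ := isAssociatedPrime_iff.1
    (Module.associatedPrimes.minimalPrimes_annihilator_subset_associatedPrimes T V hP)
  refine ⟨v, fun h0 => ‹P.IsPrime›.ne_top ?_, fun t ht => ?_⟩
  · rw [Ideal.eq_top_iff_one, hv, h0]
    simp
  · rw [hv] at ht
    simpa [Submodule.mem_colon_singleton] using ht

variable {N : ℕ} [NeZero N] {p : ℕ} [hp : Fact p.Prime]

/-- A Hecke element killing `Hom_cusp(Γ₀(N), 𝔽_p)` is nilpotent modulo `p`. -/
theorem pow_mem_of_heckeCuspAct_eq_zero {t : CuspForm.heckeAlgebra N 2 ∅}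
    (ht : heckeCuspAct N (ZMod p) (ZMod p) t = 0) :
    ∃ n : ℕ, t ^ n ∈ Ideal.span {((p : ℕ) : CuspForm.heckeAlgebra N 2 ∅)} := by
  haveI : Module.Finite ℤ (cuspidalHoms ℤ (Gamma0 N) ℤ) :=
    Module.Finite.equiv (cuspidalHomsEquiv N ℤ ℤ).symm
  have hrange : LinearMap.range (heckeCuspAct N ℤ ℤ t) ≤
      (Ideal.span {(p : ℤ)}) • (⊤ : Submodule ℤ (cuspidalHoms ℤ (Gamma0 N) ℤ)) := by
    rintro _ ⟨φ, rfl⟩
    have hz : ∀ i, ((cuspidalHomsEquiv N ℤ ℤ (heckeCuspAct N ℤ ℤ t φ) i : ℤ) : ZMod p) = 0 := by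
      intro i
      have h := congrArg Subtype.val (LinearMap.congr_fun ht
        ⟨(Int.castAddHom (ZMod p)).comp φ.1, φ.2.comp _⟩)
      rw [coe_heckeCuspAct_eq_int, coe_heckeCuspAct_comp] at h
      exact DFunLike.congr_fun h (Additive.ofMul (cuspBasisElt N i))
    choose k hk using fun i => (ZMod.intCast_zmod_eq_zero_iff_dvd _ _).1 (hz i)
    have : heckeCuspAct N ℤ ℤ t φ = (p : ℤ) • (cuspidalHomsEquiv N ℤ ℤ).symm k :=
      (cuspidalHomsEquiv N ℤ ℤ).injective (funext fun i => by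
        rw [map_smul, LinearEquiv.apply_symm_apply, hk i]; rfl)
    rw [this]
    exact Submodule.smul_mem_smul (Ideal.mem_span_singleton_self _) Submodule.mem_top
  obtain ⟨q, hq, -, hcoeff, haev⟩ :=
    LinearMap.exists_monic_and_natDegree_eq_and_coeff_mem_pow_and_aeval_eq_zero ℤ
      (heckeCuspAct N ℤ ℤ t) (Ideal.span {(p : ℤ)}) hrange
  refine ⟨q.natDegree, ?_⟩
  have h0 : Polynomial.aeval t q = 0 := by
    apply heckeCuspAct_injective N ℤ ℤ
    rw [map_zero, ← haev]
    rw [Polynomial.aeval_def, Polynomial.aeval_def, Polynomial.hom_eval₂]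
    exact congrArg (fun r => Polynomial.eval₂ r (heckeCuspAct N ℤ ℤ t) q) (RingHom.ext_int _ _)
  rw [Polynomial.aeval_eq_sum_range, Finset.sum_range_succ, hq.coeff_natDegree, one_smul] at h0
  rw [eq_neg_of_add_eq_zero_right h0]
  refine neg_mem (sum_mem fun i hi => ?_)
  have hc : q.coeff i ∈ Ideal.span {(p : ℤ)} := by
    refine Ideal.pow_le_self ?_ (hcoeff i)
    simp only [Finset.mem_range] at hi
    omega
  obtain ⟨c, hc'⟩ := Ideal.mem_span_singleton'.1 hc
  rw [← hc', zsmul_eq_mul, Int.cast_mul, Int.cast_natCast]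
  exact Ideal.mul_mem_right _ _ (Ideal.mul_mem_left _ _ (Ideal.mem_span_singleton_self _))

/-- A prime of the Hecke algebra containing `p` kills a nonzero class modulo `p`. -/
theorem exists_eigenclass (J : Ideal (CuspForm.heckeAlgebra N 2 ∅)) [J.IsPrime]
    (hpJ : ((p : ℕ) : CuspForm.heckeAlgebra N 2 ∅) ∈ J) :
    ∃ u : cuspidalHoms (ZMod p) (Gamma0 N) (ZMod p), u ≠ 0 ∧
      ∀ t ∈ J, heckeCuspAct N (ZMod p) (ZMod p) t u = 0 := by
  letI := Module.compHom (cuspidalHoms (ZMod p) (Gamma0 N) (ZMod p))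
    (heckeCuspAct N (ZMod p) (ZMod p))
  haveI : Module.Finite ℤ (CuspForm.heckeAlgebra N 2 ∅) := heckeAlgebra_moduleFinite N 2 ∅
  haveI : IsNoetherianRing (CuspForm.heckeAlgebra N 2 ∅) := .of_finite ℤ _
  haveI : Finite (cuspidalHoms (ZMod p) (Gamma0 N) (ZMod p)) :=
    Finite.of_equiv _ (cuspidalHomsEquiv N (ZMod p) (ZMod p)).symm.toEquiv
  refine exists_ne_zero_smul_eq_zero hp.out (fun v => ?_) J fun t ht => ?_
  · rw [Nat.cast_smul_eq_nsmul, ← Nat.cast_smul_eq_nsmul (ZMod p), ZMod.natCast_self, zero_smul]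
  · obtain ⟨n, hn⟩ := pow_mem_of_heckeCuspAct_eq_zero (N := N) (p := p)
      (LinearMap.ext fun v => Module.mem_annihilator.1 ht v)
    exact ‹J.IsPrime›.mem_of_pow_mem n
      (Ideal.span_le.2 (Set.singleton_subset_iff.2 hpJ) hn)

end FermatLib.Modular.LevelRaising
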