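import Fermat.Agent.Modular.LevelRaising.Equivariance
import Fermat.Agent.Modular.LevelRaising.Cokernel
import Mathlib.LinearAlgebra.Matrix.Charpoly.LinearMap

/-!
# A mod `p` class of level `N q` killed by the annihilator of the `q`-new lattice
-/

set_option autoImplicit false
set_option linter.unusedSectionVars false
set_option linter.style.haveILetI false

noncomputable section

open scoped MatrixGroups
open CongruenceSubgroup Polynomial

namespace FermatLib.Modular.LevelRaising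

open FermatLib.Modular.Degeneracy FermatLib.Modular.Ihara

theorem aeval_intertwine {R M M' : Type*} [CommRing R] [AddCommGroup M] [AddCommGroup M']
    [Module R M] [Module R M'] (φ : M →ₗ[R] M') {a : Module.End R M} {b : Module.End R M'}
    (h : ∀ x, φ (a x) = b (φ x)) (P : R[X]) (x : M) : φ (aeval a P x) = aeval b P (φ x) := by
  induction P using Polynomial.induction_on' generalizing x with
  | add f g hf hg => simp only [map_add, LinearMap.add_apply, hf, hg]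
  | monomial n c =>
    rw [aeval_monomial, aeval_monomial, Module.End.mul_apply, Module.End.mul_apply,
      Module.algebraMap_end_apply, Module.algebraMap_end_apply, map_smul]
    congr 1
    induction n generalizing x with
    | zero => simp
    | succ n ih => rw [pow_succ, pow_succ, Module.End.mul_apply, Module.End.mul_apply, ih, h]

/-- A monic polynomial with non-leading coefficients divisible by `m` acts on an eigenvector in a
`ZMod m`-module as a power of the eigenvalue. -/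
theorem aeval_apply_eigen {m : ℕ} {M : Type*} [AddCommGroup M] [Module (ZMod m) M]
    {a : Module.End ℤ M} {x : M} {c : ZMod m} (hx : a x = c • x) {P : ℤ[X]} (hP : P.Monic)
    (hcoeff : ∀ i < P.natDegree, (m : ℤ) ∣ P.coeff i) :
    aeval a P x = c ^ P.natDegree • x := by
  have hpow : ∀ n : ℕ, (a ^ n) x = c ^ n • x := by
    intro n
    induction n with
    | zero => simp
    | succ n ih =>
      rw [pow_succ, Module.End.mul_apply, hx, ZMod.map_smul, ih, smul_smul, pow_succ, mul_comm]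
  rw [aeval_eq_sum_range, Finset.sum_range_succ, hP.coeff_natDegree, one_smul,
    LinearMap.add_apply, hpow, LinearMap.sum_apply, Finset.sum_eq_zero fun i hi => ?_, zero_add]
  obtain ⟨d, hd⟩ := hcoeff i (Finset.mem_range.1 hi)
  rw [LinearMap.smul_apply, hpow, ← Int.cast_smul_eq_zsmul (ZMod m), hd, Int.cast_mul,
    Int.cast_natCast, ZMod.natCast_self, zero_mul, zero_smul]

/-- An endomorphism which is divisible by `p` modulo a stable submodule maps into it after applying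
a monic polynomial congruent to a power of `X` modulo `p`. -/
theorem exists_monic_aeval_mem {V : Type*} [AddCommGroup V] [Module.Finite ℤ V] {p : ℤ}
    (B : Submodule ℤ V) (η : Module.End ℤ V) (hstab : B ≤ B.comap η)
    (hη : ∀ z, ∃ b ∈ B, ∃ z', η z = b + p • z') :
    ∃ P : ℤ[X], P.Monic ∧ (∀ i < P.natDegree, p ∣ P.coeff i) ∧ ∀ z, aeval η P z ∈ B := by
  obtain ⟨P, hP, -, hcoeff, haev⟩ :=
    LinearMap.exists_monic_and_natDegree_eq_and_coeff_mem_pow_and_aeval_eq_zero ℤ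
      (Submodule.mapQ B B η hstab) (Ideal.span {p}) (by
        rintro _ ⟨x, rfl⟩
        obtain ⟨z, rfl⟩ := Submodule.Quotient.mk_surjective _ x
        obtain ⟨b, hb, z', hz⟩ := hη z
        rw [Submodule.mapQ_apply, hz, Submodule.Quotient.mk_add,
          (Submodule.Quotient.mk_eq_zero _).2 hb, zero_add, Submodule.Quotient.mk_smul]
        exact Submodule.smul_mem_smul (Ideal.mem_span_singleton_self _) Submodule.mem_top)
  refine ⟨P, hP, fun i hi => Ideal.mem_span_singleton.1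
    (Ideal.pow_le_self (by omega) (hcoeff i)), fun z => ?_⟩
  rw [← Submodule.Quotient.mk_eq_zero, ← Submodule.mkQ_apply,
    aeval_intertwine (Submodule.mkQ _) (b := Submodule.mapQ B B η hstab) (fun x => rfl) P z, haev,
    LinearMap.zero_apply]

theorem cuspMap_heckeCuspOp {M : ℕ} {A B : Type*} [CommRing A] [CommRing B] (e : A →+* B)
    (ℓ : Nat.Primes) (φ : cuspidalHoms A (Gamma0 M) A) :
    cuspMap e (heckeCuspOp A A M ℓ φ) = heckeCuspOp B B M ℓ (cuspMap e φ) := by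
  refine Subtype.ext ?_
  rw [coe_cuspMap, coe_heckeCuspOp, coe_heckeCuspOp, coe_cuspMap, heckeHomOp_eq_int,
    heckeHomOp_eq_int (R := B)]
  exact (heckeHomOp_comp_left (R := ℤ) ℓ e.toAddMonoidHom φ.1).symm

/-- `T ℓ - (ℓ + 1)` on cuspidal homomorphisms. -/
def eisOp (A : Type*) [CommRing A] (M : ℕ) (ℓ : Nat.Primes) :
    Module.End A (cuspidalHoms A (Gamma0 M) A) :=
  heckeCuspOp A A M ℓ - (((ℓ : ℕ) : A) + 1) • 1

theorem eisOp_apply {A : Type*} [CommRing A] {M : ℕ} {ℓ : Nat.Primes}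
    (x : cuspidalHoms A (Gamma0 M) A) :
    eisOp A M ℓ x = heckeCuspOp A A M ℓ x - (((ℓ : ℕ) : A) + 1) • x := rfl

theorem cuspMap_eisOp {M : ℕ} {A B : Type*} [CommRing A] [CommRing B] (e : A →+* B)
    (ℓ : Nat.Primes) (φ : cuspidalHoms A (Gamma0 M) A) :
    cuspMap e (eisOp A M ℓ φ) = eisOp B M ℓ (cuspMap e φ) := by
  rw [eisOp_apply, eisOp_apply, map_sub, cuspMap_heckeCuspOp]
  congr 1
  refine Subtype.ext (AddMonoidHom.ext fun x => ?_)
  show e ((((ℓ : ℕ) : A) + 1) * φ.1 x) = ((((ℓ : ℕ) : B) + 1)) * e (φ.1 x)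
  rw [map_mul, map_add, map_natCast, map_one]

variable {N q p : ℕ} [NeZero N] [NeZero q] [hq : Fact q.Prime] [Fact (Nat.Coprime q N)]
  [hp : Fact p.Prime]

theorem degBeta_eisOp {A : Type*} [CommRing A] {ℓ : Nat.Primes} (hℓ : ¬ (ℓ : ℕ) ∣ N * q)
    (y : cuspidalHoms A (Gamma0 (N * q)) A) :
    degBeta N q A (eisOp A (N * q) ℓ y) = (eisOp A N ℓ).prodMap (eisOp A N ℓ) (degBeta N q A y) := by
  rw [eisOp_apply, map_sub, map_smul, degBeta_heckeCuspOp hℓ]
  rfl

/-- Ihara's lemma, over `ℤ`: the cokernel of the degeneracy map to level `N` is killed by a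
monic polynomial in `T ℓ - (ℓ + 1)` congruent to a power of `X` modulo `p`. -/
theorem exists_monic_aeval_mem_range (ℓ : Nat.Primes) (hℓM : ¬ (ℓ : ℕ) ∣ N * q)
    (hℓ : ((ℓ : ℕ) : ZMod (iharaLevel N q)) = 1) :
    ∃ P : ℤ[X], P.Monic ∧ (∀ i < P.natDegree, (p : ℤ) ∣ P.coeff i) ∧
      ∀ z : cuspidalHoms ℤ (Gamma0 N) ℤ × cuspidalHoms ℤ (Gamma0 N) ℤ,
        aeval ((eisOp ℤ N ℓ).prodMap (eisOp ℤ N ℓ)) P z ∈ LinearMap.range (degBeta N q ℤ) := by
  haveI : Module.Finite ℤ (cuspidalHoms ℤ (Gamma0 N) ℤ) :=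
    Module.Finite.equiv (cuspidalHomsEquiv N ℤ ℤ).symm
  refine exists_monic_aeval_mem _ _ ?_ fun z => ?_
  · rintro _ ⟨y, rfl⟩
    exact ⟨eisOp ℤ (N * q) ℓ y, degBeta_eisOp hℓM y⟩
  set e := Int.castRingHom (ZMod p)
  obtain ⟨y', hy'⟩ := hecke_sub_mem_range_degBeta (K := ZMod p) ℓ
    (fun h => hℓM (h.mul_right q)) hℓ (cuspMap e z.1, cuspMap e z.2)
  obtain ⟨y, rfl⟩ := cuspMap_cuspidalHoms_surjective (N := N * q)
    (e := e) (ZMod.ringHom_surjective _) y'
  rw [← cuspMap_degBeta] at hy'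
  have h1 : cuspMap e (eisOp ℤ N ℓ z.1 - (degBeta N q ℤ y).1) = 0 := by
    rw [map_sub, cuspMap_eisOp, sub_eq_zero]
    exact (congrArg Prod.fst hy').symm
  have h2 : cuspMap e (eisOp ℤ N ℓ z.2 - (degBeta N q ℤ y).2) = 0 := by
    rw [map_sub, cuspMap_eisOp, sub_eq_zero]
    exact (congrArg Prod.snd hy').symm
  obtain ⟨a, ha⟩ := exists_smul_of_cuspMap_eq_zero h1
  obtain ⟨b, hb⟩ := exists_smul_of_cuspMap_eq_zero h2
  exact ⟨_, LinearMap.mem_range_self _ y, (a, b),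
    Prod.ext (eq_add_of_sub_eq' ha) (eq_add_of_sub_eq' hb)⟩

theorem map_sub_natCast_zsmul {m : ℕ} {V W : Type*} [AddCommGroup V] [AddCommGroup W]
    [Module (ZMod m) W] (f : V →+ W) (x y : V) : f (x - (m : ℤ) • y) = f x := by
  rw [map_sub, map_zsmul, ← Int.cast_smul_eq_zsmul (ZMod m), Int.cast_natCast, ZMod.natCast_self,
    zero_smul, sub_zero]

theorem degBeta_aeval_eisOp {ℓ : Nat.Primes} (hℓ : ¬ (ℓ : ℕ) ∣ N * q) (P : ℤ[X])
    (Y : cuspidalHoms ℤ (Gamma0 (N * q)) ℤ) :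
    degBeta N q ℤ (aeval (eisOp ℤ (N * q) ℓ) P Y) =
      aeval ((eisOp ℤ N ℓ).prodMap (eisOp ℤ N ℓ)) P (degBeta N q ℤ Y) :=
  aeval_intertwine _ (degBeta_eisOp hℓ) P Y

theorem cuspMap_aeval_eisOp {M : ℕ} (ℓ : Nat.Primes) {P : ℤ[X]} (hP : P.Monic)
    (hcoeff : ∀ i < P.natDegree, (p : ℤ) ∣ P.coeff i)
    {w : cuspidalHoms (ZMod p) (Gamma0 M) (ZMod p)} {c : ZMod p}
    (hw : eisOp (ZMod p) M ℓ w = c • w) {Y : cuspidalHoms ℤ (Gamma0 M) ℤ}
    (hY : cuspMap (Int.castRingHom (ZMod p)) Y = w) :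
    cuspMap (Int.castRingHom (ZMod p)) (aeval (eisOp ℤ M ℓ) P Y) = c ^ P.natDegree • w := by
  subst hY
  exact (aeval_intertwine (cuspMap (N := M) (Int.castRingHom (ZMod p))).toIntLinearMap
    (b := (eisOp (ZMod p) M ℓ).restrictScalars ℤ) (cuspMap_eisOp _ ℓ) P Y).trans
    (aeval_apply_eigen hw hP hcoeff)

theorem map_sub_zsmul_eq_zero {V W : Type*} [AddCommGroup V] [AddCommGroup W] (β : V →+ W)
    (L : W →+ W) {x y y' : V} {z : W} {m : ℤ} (h1 : β x = L (β y)) (hZ : β y = m • z)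
    (hY' : β y' = L z) : β (x - m • y') = 0 := by
  rw [map_sub, map_zsmul, h1, hZ, hY', map_zsmul, sub_self]

theorem degBeta_sub_smul_eq_zero {ℓ : Nat.Primes} (hℓ : ¬ (ℓ : ℕ) ∣ N * q) (P : ℤ[X]) {m : ℤ}
    {Y Y' : cuspidalHoms ℤ (Gamma0 (N * q)) ℤ}
    {Z : cuspidalHoms ℤ (Gamma0 N) ℤ × cuspidalHoms ℤ (Gamma0 N) ℤ}
    (hZ : degBeta N q ℤ Y = m • Z)
    (hY' : degBeta N q ℤ Y' = aeval ((eisOp ℤ N ℓ).prodMap (eisOp ℤ N ℓ)) P Z) :
    degBeta N q ℤ (aeval (eisOp ℤ (N * q) ℓ) P Y - m • Y') = 0 :=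
  map_sub_zsmul_eq_zero (degBeta N q ℤ).toAddMonoidHom
    (aeval ((eisOp ℤ N ℓ).prodMap (eisOp ℤ N ℓ)) P).toAddMonoidHom
    (degBeta_aeval_eisOp hℓ P Y) hZ hY'

/-- A class modulo `p` of level `N q` built from an eigenclass of level `N` satisfying the level
raising congruence is killed by every Hecke element which kills the kernel of `(U q) ^ 2 - 1` on
the integral lattice. -/
theorem heckeCuspAct_degAlpha_eq_zero (ℓ : Nat.Primes) (hℓN : ¬ (ℓ : ℕ) ∣ N * q)
    (hℓ : ((ℓ : ℕ) : ZMod (iharaLevel N q)) = 1)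
    {u : cuspidalHoms (ZMod p) (Gamma0 N) (ZMod p)} {a : ZMod p}
    (hu : heckeCuspOp (ZMod p) (ZMod p) N ℓ u = a • u) (ha : a ≠ ((ℓ : ℕ) : ZMod p) + 1)
    {ε : ZMod p} (hε : ε * ε = 1)
    (huq : heckeCuspOp (ZMod p) (ZMod p) N (qPrime q) u = (ε * ((q : ZMod p) + 1)) • u)
    {t : CuspForm.heckeAlgebra (N * q) 2 ∅}
    (ht : ∀ φ : cuspidalHoms ℤ (Gamma0 (N * q)) ℤ,
      heckeCuspOp ℤ ℤ (N * q) (qPrime q) (heckeCuspOp ℤ ℤ (N * q) (qPrime q) φ) = φ →
        heckeCuspAct (N * q) ℤ ℤ t φ = 0) :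
    heckeCuspAct (N * q) (ZMod p) (ZMod p) t (degAlpha N q (ZMod p) (u, -ε • u)) = 0 := by
  set e := Int.castRingHom (ZMod p) with he
  set w := degAlpha N q (ZMod p) (u, -ε • u) with hw
  have hwβ : degBeta N q (ZMod p) w = 0 := by
    rw [hw, degBeta_degAlpha, Prod.mk_eq_zero]
    simp only [map_smul, huq, smul_smul, ← Nat.cast_smul_eq_nsmul (ZMod p)]
    constructor <;> rw [← add_smul] <;> refine smul_eq_zero_of_left ?_ u <;> push_cast
    · linear_combination -((q : ZMod p) + 1) * hε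
    · ring
  have hwℓ : eisOp (ZMod p) (N * q) ℓ w = (a - (((ℓ : ℕ) : ZMod p) + 1)) • w := by
    rw [eisOp_apply, hw, degAlpha_heckeCuspOp hℓN, map_smul, hu, smul_comm (-ε) a u,
      ← Prod.smul_mk, map_smul]
    exact (sub_smul _ _ _).symm
  obtain ⟨Y, hY⟩ := cuspMap_cuspidalHoms_surjective (N := N * q) (e := e)
    (ZMod.ringHom_surjective _) w
  have hYβ := cuspMap_degBeta (N := N) (q := q) e Y
  rw [hY, hwβ, Prod.mk_eq_zero] at hYβ
  obtain ⟨Z₁, hZ₁⟩ := exists_smul_of_cuspMap_eq_zero hYβ.1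
  obtain ⟨Z₂, hZ₂⟩ := exists_smul_of_cuspMap_eq_zero hYβ.2
  obtain ⟨P, hP, hcoeff, hrange⟩ := exists_monic_aeval_mem_range (p := p) ℓ hℓN hℓ
  obtain ⟨Y', hY'⟩ := hrange (Z₁, Z₂)
  have hker := degBeta_sub_smul_eq_zero (Y := Y) (Z := (Z₁, Z₂)) (m := (p : ℤ)) hℓN P
    (Prod.ext hZ₁ hZ₂) hY'
  have h0 := ht _ (heckeCuspOp_q_sq_of_degBeta_eq_zero hker)
  have hfin : cuspMap e (aeval (eisOp ℤ (N * q) ℓ) P Y - (p : ℤ) • Y') =
      (a - (((ℓ : ℕ) : ZMod p) + 1)) ^ P.natDegree • w := by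
    rw [map_sub_natCast_zsmul (cuspMap (N := N * q) e)]
    exact cuspMap_aeval_eisOp (M := N * q) (w := w) (c := a - (((ℓ : ℕ) : ZMod p) + 1)) ℓ hP hcoeff
      hwℓ hY
  have h1 := congrArg (cuspMap (N := N * q) e) h0
  rw [cuspMap_heckeCuspAct, hfin, map_smul, map_zero] at h1
  exact (smul_eq_zero.1 h1).resolve_left (pow_ne_zero _ (sub_ne_zero.2 ha))

end FermatLib.Modular.LevelRaising
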