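import Fermat.Agent.Modular.LevelRaising.Raise
import Fermat.Agent.Modular.LevelRaising.NonEisenstein
import Fermat.Agent.Galois.EigenformCharacter
import Fermat.Prelude.Def_FreyPackage_LevelRaising

/-!
# Level raising for eigenforms congruent to an elliptic curve
-/

set_option autoImplicit false
set_option linter.style.haveILetI false

noncomputable section

open scoped MatrixGroups
open CongruenceSubgroup

namespace FermatLib.Modular.LevelRaising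

open FermatLib.Modular.Degeneracy FermatLib.Modular.Ihara

/-- An eigencharacter modulo a maximal ideal over `p` gives an eigenclass of cuspidal
homomorphisms modulo `p`, on which the Hecke elements with integral eigenvalue act by scalars. -/
theorem exists_eigenclass_of_character {N p : ℕ} [NeZero N] [Fact p.Prime]
    (ξ : CuspForm.heckeAlgebra N 2 ∅ →+* integralClosure ℤ ℂ) (𝔪 : Ideal (integralClosure ℤ ℂ))
    [𝔪.IsPrime] (hp : (p : integralClosure ℤ ℂ) ∈ 𝔪) :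
    ∃ u : cuspidalHoms (ZMod p) (Gamma0 N) (ZMod p), u ≠ 0 ∧
      ∀ (t : CuspForm.heckeAlgebra N 2 ∅) (z : ℤ), ξ t - (z : integralClosure ℤ ℂ) ∈ 𝔪 →
        heckeCuspAct N (ZMod p) (ZMod p) t u = (z : ZMod p) • u := by
  obtain ⟨u, hu0, hu⟩ := exists_eigenclass (N := N) (p := p) (𝔪.comap ξ)
    (by rw [Ideal.mem_comap, map_natCast]; exact hp)
  refine ⟨u, hu0, fun t z hz => ?_⟩
  have h := hu (t - (z : CuspForm.heckeAlgebra N 2 ∅))
    (by rw [Ideal.mem_comap, map_sub, map_intCast]; exact hz)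
  rwa [map_sub, map_intCast, LinearMap.sub_apply, Module.End.intCast_apply, sub_eq_zero,
    ← Int.cast_smul_eq_zsmul (ZMod p)] at h

/-- **Level raising**: if `f` of level `N` is congruent modulo a prime over `p` to an integral
Weierstrass model with irreducible `p`-torsion and satisfies the level raising congruence at `q`,
then so is an eigenform of level `N q` which is new at `q`. -/
theorem exists_isNewAt_of_levelRaisingCongruence {W : WeierstrassCurve ℤ} (hΔ : W.Δ ≠ 0)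
    {p N q : ℕ} (hp : p.Prime) (hp2 : p ≠ 2) (hN : 0 < N) (hq : q.Prime) (hqN : ¬ q ∣ N)
    (hirr : WeierstrassCurve.Affine.Point.GaloisRepIsIrreducible (K := AlgebraicClosure ℚ) ℚ
      (W.map (Int.castRingHom ℚ)) p)
    (f : CuspForm (Gamma0 N) 2) (𝔪 : Ideal (integralClosure ℤ ℂ))
    (hf : f.IsNormalizedEigenform) (hmax : 𝔪.IsMaximal) (hpm : (p : integralClosure ℤ ℂ) ∈ 𝔪)
    (hcong : ∀ ℓ : ℕ, ℓ.Prime → W.IsGoodPrimeFor ℓ → ¬ ℓ ∣ N → ℓ ≠ p →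
      ∃ a : integralClosure ℤ ℂ, (a : ℂ) = ModularFormClass.qCoeff f ℓ ∧
        a - ((W.apOfModel ℓ : ℤ) : integralClosure ℤ ℂ) ∈ 𝔪)
    (hLR : ∃ a : integralClosure ℤ ℂ, (a : ℂ) = ModularFormClass.qCoeff f q ∧
      a ^ 2 - ((q : integralClosure ℤ ℂ) + 1) ^ 2 ∈ 𝔪) :
    ∃ (g : CuspForm (Gamma0 (N * q)) 2) (𝔪' : Ideal (integralClosure ℤ ℂ)),
      g.IsNormalizedEigenform ∧ 𝔪'.IsMaximal ∧ (p : integralClosure ℤ ℂ) ∈ 𝔪' ∧
      (∀ ℓ : ℕ, ℓ.Prime → W.IsGoodPrimeFor ℓ → ¬ ℓ ∣ N * q → ℓ ≠ p →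
        ∃ a : integralClosure ℤ ℂ, (a : ℂ) = ModularFormClass.qCoeff g ℓ ∧
          a - ((W.apOfModel ℓ : ℤ) : integralClosure ℤ ℂ) ∈ 𝔪') ∧
      g.IsNewAt q := by
  haveI : Fact p.Prime := ⟨hp⟩
  haveI : Fact q.Prime := ⟨hq⟩
  haveI : NeZero N := ⟨hN.ne'⟩
  haveI : NeZero q := ⟨hq.ne_zero⟩
  haveI : Fact (Nat.Coprime q N) := ⟨hq.coprime_iff_not_dvd.2 hqN⟩
  haveI : Module.Finite ℤ (CuspForm.heckeAlgebra N 2 (∅ : Set ℕ)) :=
    heckeAlgebra_moduleFinite N 2 ∅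
  haveI := hmax.isPrime
  obtain ⟨ξ, -, hξT, -⟩ := Galois.exists_eigenformCharacter (S := (∅ : Set ℕ)) hf
  obtain ⟨u, hu0, hu⟩ := exists_eigenclass_of_character ξ 𝔪 hpm
  set L : Set ℕ := {ℓ | ℓ.Prime ∧ W.IsGoodPrimeFor ℓ ∧ ¬ ℓ ∣ N * q ∧ ℓ ≠ p}
  have huL : ∀ ℓ : Nat.Primes, (ℓ : ℕ) ∈ L →
      heckeCuspOp (ZMod p) (ZMod p) N ℓ u = (W.apOfModel ℓ : ZMod p) • u := by
    rintro ⟨ℓ, hℓ⟩ ⟨-, hgood, hℓM, hℓp⟩
    have hℓN : ¬ ℓ ∣ N := fun h => hℓM (h.mul_right q)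
    obtain ⟨b, hb, hbm⟩ := hcong ℓ hℓ hgood hℓN hℓp
    rw [← heckeCuspAct_T N (ZMod p) (ZMod p) hℓ hℓN]
    refine hu _ _ ?_
    rwa [show ξ (CuspForm.heckeAlgebra.T hℓ hℓN (Set.notMem_empty ℓ)) = b from
      Subtype.ext ((hξT ℓ hℓ hℓN _).trans hb.symm)]
  obtain ⟨ε, hε, huq⟩ : ∃ ε : ZMod p, ε * ε = 1 ∧
      heckeCuspOp (ZMod p) (ZMod p) N (qPrime q) u = (ε * ((q : ZMod p) + 1)) • u := by
    obtain ⟨b, hb, hbm⟩ := hLR
    rw [sq_sub_sq] at hbm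
    have hT : ξ (CuspForm.heckeAlgebra.T hq hqN (Set.notMem_empty q)) = b :=
      Subtype.ext ((hξT q hq hqN _).trans hb.symm)
    have hop : heckeCuspOp (ZMod p) (ZMod p) N (qPrime q) u =
        heckeCuspAct N (ZMod p) (ZMod p) (CuspForm.heckeAlgebra.T hq hqN (Set.notMem_empty q)) u :=
      (LinearMap.congr_fun (heckeCuspAct_T N (ZMod p) (ZMod p) hq hqN) u).symm
    rcases Ideal.IsPrime.mem_or_mem inferInstance hbm with h | h
    · refine ⟨-1, by ring, ?_⟩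
      rw [hop, hu _ (-((q : ℤ) + 1)) (by rw [hT]; push_cast; rwa [sub_neg_eq_add])]
      congr 1
      push_cast
      ring
    · refine ⟨1, by ring, ?_⟩
      rw [hop, hu _ ((q : ℤ) + 1) (by rw [hT]; push_cast; exact h)]
      congr 1
      push_cast
      ring
  have hI : 0 < iharaLevel N q := iharaLevel_pos hN hq
  obtain ⟨ℓ₀, hℓ₀, hℓ₀S, hℓ₀g, hℓ₀1, hℓ₀a⟩ := exists_prime_apOfModel_ne hΔ hp2 hirr
    (Nat.mul_pos hI hp.pos) (dvd_mul_left p (iharaLevel N q))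
    ((N * q).primeFactors ∪ {p})
  simp only [Finset.mem_union, Finset.mem_singleton, not_or] at hℓ₀S
  have hℓ₀M : ¬ ℓ₀ ∣ N * q := fun h =>
    hℓ₀S.1 (hℓ₀.mem_primeFactors h (Nat.mul_ne_zero hN.ne' hq.ne_zero))
  have hℓ₀I : (ℓ₀ : ZMod (iharaLevel N q)) = 1 := by
    have h := congrArg (ZMod.castHom (dvd_mul_right (iharaLevel N q) p)
      (ZMod (iharaLevel N q))) hℓ₀1
    rwa [map_natCast, map_one] at h
  obtain ⟨g, 𝔪', hg, h𝔪', hp', hcong', hnew⟩ := exists_newAt_of_eigenclass L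
    (fun ℓ hℓ => ⟨hℓ.1, hℓ.2.2.1⟩) (fun ℓ => W.apOfModel ℓ) hu0 huL hε huq ⟨ℓ₀, hℓ₀⟩
    ⟨hℓ₀, hℓ₀g, hℓ₀M, hℓ₀S.2⟩ hℓ₀I hℓ₀a
  exact ⟨g, 𝔪', hg, h𝔪', hp', fun ℓ hℓ hgood hℓM hℓp => hcong' ℓ ⟨hℓ, hgood, hℓM, hℓp⟩, hnew⟩

end FermatLib.Modular.LevelRaising
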