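import Fermat.Agent.Modular.LevelRaising.Lattice
import Fermat.Agent.Modular.LevelRaising.Eigenclass
import Fermat.Prelude.Def_FLTPrelim_Modularity
import Mathlib.RingTheory.Ideal.MinimalPrime.Localization

/-!
# Level raising: an eigenform of level `N q` with `a_q ^ 2 = 1`
-/

set_option autoImplicit false
set_option linter.unusedSectionVars false
set_option linter.style.haveILetI false

noncomputable section

open scoped MatrixGroups
open CongruenceSubgroup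

namespace FermatLib.Modular.LevelRaising

open FermatLib.Modular.Degeneracy FermatLib.Modular.Ihara

variable {N q p : ℕ} [NeZero N] [NeZero q] [hq : Fact q.Prime] [Fact (Nat.Coprime q N)]
  [hp : Fact p.Prime]

theorem degAlpha_ne_zero (ℓ : Nat.Primes) (hℓN : ¬ (ℓ : ℕ) ∣ N)
    (hℓ : ((ℓ : ℕ) : ZMod (iharaLevel N q)) = 1)
    {u : cuspidalHoms (ZMod p) (Gamma0 N) (ZMod p)} (hu0 : u ≠ 0) {a : ZMod p}
    (hu : heckeCuspOp (ZMod p) (ZMod p) N ℓ u = a • u) (ha : a ≠ ((ℓ : ℕ) : ZMod p) + 1)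
    (c : ZMod p) : degAlpha N q (ZMod p) (u, c • u) ≠ 0 := by
  intro h
  have hvan : ∀ γ : Gamma0 N, (γ : SL(2, ℤ)) ∈ Gamma (iharaLevel N q) →
      u.1 (Additive.ofMul γ) = 0 := fun γ hγ => (vanishing_of_degAlpha_eq_zero h γ hγ).1
  have h2 := heckeHomOp_eq_of_vanishing (R := ZMod p) ℓ hℓN hℓ hvan
  rw [← coe_heckeCuspOp, hu] at h2
  have h3 : (a - (((ℓ : ℕ) : ZMod p) + 1)) • u = 0 := by
    refine (sub_smul _ _ u).trans (sub_eq_zero.2 (Subtype.ext (h2.trans ?_)))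
    show ((ℓ : ℕ) + 1) • u.1 = ((((ℓ : ℕ) : ZMod p)) + 1) • u.1
    rw [← Nat.cast_smul_eq_nsmul (ZMod p), Nat.cast_add, Nat.cast_one]
  exact hu0 ((smul_eq_zero.1 h3).resolve_left (sub_ne_zero.2 ha))

/-- The Hecke elements killing the kernel of `(U q) ^ 2 - 1` on the integral lattice. -/
def newAnnihilator (N q : ℕ) [NeZero N] [NeZero q] [Fact q.Prime] :
    Ideal (CuspForm.heckeAlgebra (N * q) 2 ∅) where
  carrier := {t | ∀ φ : cuspidalHoms ℤ (Gamma0 (N * q)) ℤ,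
    heckeCuspOp ℤ ℤ (N * q) (qPrime q) (heckeCuspOp ℤ ℤ (N * q) (qPrime q) φ) = φ →
      heckeCuspAct (N * q) ℤ ℤ t φ = 0}
  add_mem' := fun {s t} hs ht φ hφ => by
    rw [map_add, LinearMap.add_apply, hs φ hφ, ht φ hφ, add_zero]
  zero_mem' := fun φ _ => by rw [map_zero, LinearMap.zero_apply]
  smul_mem' := fun c t ht φ hφ => by
    rw [smul_eq_mul, map_mul, Module.End.mul_apply, ht φ hφ, map_zero]

theorem mem_newAnnihilator {t : CuspForm.heckeAlgebra (N * q) 2 ∅} :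
    t ∈ newAnnihilator N q ↔ ∀ φ : cuspidalHoms ℤ (Gamma0 (N * q)) ℤ,
      heckeCuspOp ℤ ℤ (N * q) (qPrime q) (heckeCuspOp ℤ ℤ (N * q) (qPrime q) φ) = φ →
        heckeCuspAct (N * q) ℤ ℤ t φ = 0 := Iff.rfl

theorem U_sq_sub_one_mem_newAnnihilator :
    CuspForm.heckeAlgebra.U (Fact.out : q.Prime) (dvd_mul_left q N) (Set.notMem_empty q) ^ 2 - 1 ∈
      newAnnihilator N q := by
  rw [mem_newAnnihilator]
  intro φ hφ
  rw [map_sub, map_one, sq, map_mul, heckeCuspAct_U, LinearMap.sub_apply, Module.End.one_apply,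
    Module.End.mul_apply, sub_eq_zero]
  exact hφ

theorem natCast_notMem_of_minimal {P : Ideal (CuspForm.heckeAlgebra (N * q) 2 ∅)}
    (hP : P ∈ (newAnnihilator N q).minimalPrimes) {n : ℕ} (hn : n ≠ 0) :
    (n : CuspForm.heckeAlgebra (N * q) 2 ∅) ∉ P := by
  intro hmem
  obtain ⟨y, hy, hny⟩ := Ideal.exists_mul_mem_of_mem_minimalPrimes hP hmem
  refine hy fun φ hφ => ?_
  have h := hny φ hφ
  rw [map_mul, map_natCast, Module.End.mul_apply, Module.End.natCast_apply] at h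
  refine (cuspidalHomsEquiv (N * q) ℤ ℤ).injective (funext fun i => ?_)
  have h' := congrFun (congrArg (cuspidalHomsEquiv (N * q) ℤ ℤ) h) i
  rw [map_nsmul, map_zero, Pi.smul_apply, Pi.zero_apply, nsmul_eq_mul] at h'
  rw [map_zero, Pi.zero_apply]
  exact (mul_eq_zero.1 h').resolve_left (Nat.cast_ne_zero.2 hn)

theorem comap_eq_bot_of_minimal {P : Ideal (CuspForm.heckeAlgebra (N * q) 2 ∅)}
    (hP : P ∈ (newAnnihilator N q).minimalPrimes) :
    P.comap (algebraMap ℤ (CuspForm.heckeAlgebra (N * q) 2 ∅)) = ⊥ := by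
  refine eq_bot_iff.2 fun z hz => ?_
  rw [Ideal.mem_bot]
  by_contra hz0
  refine natCast_notMem_of_minimal hP (Int.natAbs_ne_zero.2 hz0) ?_
  rw [Ideal.mem_comap, algebraMap_int_eq, eq_intCast] at hz
  rcases Int.natAbs_eq z with h | h <;> rw [h] at hz
  · simpa using hz
  · simpa using hz

/-- **Level raising**, in terms of an eigenclass modulo `p`: if `u` is an eigenclass of level `N`
whose `T q`-eigenvalue is `± (q + 1)` and which is not Eisenstein at some prime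
`ℓ₀ ≡ 1 (mod iharaLevel N q)`, then its system of eigenvalues occurs at level `N q` in an
eigenform with `a q ^ 2 = 1`. -/
theorem exists_newAt_of_eigenclass (L : Set ℕ) (hL : ∀ ℓ ∈ L, ℓ.Prime ∧ ¬ ℓ ∣ N * q)
    (a : ℕ → ℤ) {u : cuspidalHoms (ZMod p) (Gamma0 N) (ZMod p)} (hu0 : u ≠ 0)
    (hu : ∀ (ℓ : Nat.Primes), (ℓ : ℕ) ∈ L →
      heckeCuspOp (ZMod p) (ZMod p) N ℓ u = (a ℓ : ZMod p) • u)
    {ε : ZMod p} (hε : ε * ε = 1)
    (huq : heckeCuspOp (ZMod p) (ZMod p) N (qPrime q) u = (ε * ((q : ZMod p) + 1)) • u)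
    (ℓ₀ : Nat.Primes) (hℓ₀L : (ℓ₀ : ℕ) ∈ L)
    (hℓ₀ : ((ℓ₀ : ℕ) : ZMod (iharaLevel N q)) = 1)
    (ha : (a ℓ₀ : ZMod p) ≠ ((ℓ₀ : ℕ) : ZMod p) + 1) :
    ∃ (g : CuspForm (Gamma0 (N * q)) 2) (𝔪 : Ideal (integralClosure ℤ ℂ)),
      g.IsNormalizedEigenform ∧ 𝔪.IsMaximal ∧ (p : integralClosure ℤ ℂ) ∈ 𝔪 ∧
      (∀ ℓ ∈ L, ∃ b : integralClosure ℤ ℂ, (b : ℂ) = ModularFormClass.qCoeff g ℓ ∧
        b - ((a ℓ : ℤ) : integralClosure ℤ ℂ) ∈ 𝔪) ∧
      ModularFormClass.qCoeff g q ^ 2 = 1 := by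
  set M := N * q with hM
  set w := degAlpha N q (ZMod p) (u, -ε • u) with hw
  have hℓ₀M : ¬ (ℓ₀ : ℕ) ∣ N * q := (hL _ hℓ₀L).2
  have hw0 : w ≠ 0 :=
    degAlpha_ne_zero ℓ₀ (fun h => hℓ₀M (h.mul_right q)) hℓ₀ hu0 (hu ℓ₀ hℓ₀L) ha _
  letI := Module.compHom (cuspidalHoms (ZMod p) (Gamma0 (N * q)) (ZMod p))
    (heckeCuspAct (N * q) (ZMod p) (ZMod p))
  set J : Ideal (CuspForm.heckeAlgebra (N * q) 2 ∅) :=
    LinearMap.ker (LinearMap.toSpanSingleton (CuspForm.heckeAlgebra (N * q) 2 ∅) _ w) with hJdef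
  have hJ : ∀ t, t ∈ J ↔ heckeCuspAct (N * q) (ZMod p) (ZMod p) t w = 0 := fun t => Iff.rfl
  have hJtop : J ≠ ⊤ := by
    intro h
    have h1 := (hJ 1).1 (h ▸ Submodule.mem_top)
    rw [map_one, Module.End.one_apply] at h1
    exact hw0 h1
  have hIJ : newAnnihilator N q ≤ J := fun t ht =>
    (hJ t).2 (heckeCuspAct_degAlpha_eq_zero ℓ₀ hℓ₀M hℓ₀ (hu ℓ₀ hℓ₀L) ha hε huq ht)
  obtain ⟨J', hJ'max, hJJ'⟩ := Ideal.exists_le_maximal J hJtop
  have hpJ : (p : CuspForm.heckeAlgebra (N * q) 2 ∅) ∈ J := by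
    rw [hJ, map_natCast, Module.End.natCast_apply, ← Nat.cast_smul_eq_nsmul (ZMod p),
      ZMod.natCast_self, zero_smul]
  have hTJ : ∀ ℓ (hℓ : ℓ ∈ L), CuspForm.heckeAlgebra.T (hL ℓ hℓ).1 (hL ℓ hℓ).2
      (Set.notMem_empty ℓ) - (a ℓ : CuspForm.heckeAlgebra (N * q) 2 ∅) ∈ J := by
    intro ℓ hℓ
    rw [hJ, map_sub, map_intCast, LinearMap.sub_apply, heckeCuspAct_T, sub_eq_zero,
      Module.End.intCast_apply, ← Int.cast_smul_eq_zsmul (ZMod p), hw,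
      degAlpha_heckeCuspOp (ℓ := ⟨ℓ, (hL ℓ hℓ).1⟩) (hL ℓ hℓ).2, map_smul,
      hu ⟨ℓ, (hL ℓ hℓ).1⟩ hℓ, smul_comm (-ε) (a ℓ : ZMod p) u, ← Prod.smul_mk, map_smul]
  haveI := hJ'max.isPrime
  obtain ⟨P, hP, hPJ'⟩ := Ideal.exists_minimalPrimes_le (hIJ.trans hJJ')
  haveI := hP.isPrime
  have hint := hasIntegralStructure (N * q) 2
  haveI := Basic.finiteDimensional_of_hasIntegralStructure hint
  haveI := Basic.heckeAlgebra_algebraIsIntegral (S := (∅ : Set ℕ)) hint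
  obtain ⟨v, χ₀, hv, heig, hker⟩ := Basic.exists_eigenchar_ker_le
    (CuspForm.heckeAlgebra (N * q) 2 ∅).val.toRingHom P (fun t ht => by
      rw [show t = 0 from Subtype.ext ht]; exact P.zero_mem)
  haveI : (RingHom.ker χ₀).IsPrime := RingHom.ker_isPrime χ₀
  have hkerP : RingHom.ker χ₀ = P := by
    rcases hker.eq_or_lt with h | h
    · exact h
    · have h1 := Ideal.IsIntegral.comap_lt_comap (R := ℤ) h
      rw [comap_eq_bot_of_minimal hP] at h1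
      exact absurd h1 not_lt_bot
  obtain ⟨g, hg, -, hgT, hgU⟩ := Basic.exists_normalizedEigenform_of_eigenchar v hv χ₀ heig
  let χ : CuspForm.heckeAlgebra (N * q) 2 ∅ →+* integralClosure ℤ ℂ :=
    χ₀.codRestrict (integralClosure ℤ ℂ).toSubring
      (fun t => (Algebra.IsIntegral.isIntegral (R := ℤ) t).map χ₀.toIntAlgHom)
  letI := χ.toAlgebra
  haveI : Algebra.IsIntegral (CuspForm.heckeAlgebra (N * q) 2 ∅) (integralClosure ℤ ℂ) :=
    Algebra.IsIntegral.tower_top ℤ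
  obtain ⟨𝔪, h𝔪, hcomap⟩ := Ideal.exists_ideal_over_maximal_of_isIntegral
    (S := integralClosure ℤ ℂ) J' (fun t ht => hPJ' (hkerP ▸
      (congrArg Subtype.val (show χ t = 0 from ht) : χ₀ t = 0)))
  have hmem : ∀ t ∈ J', χ t ∈ 𝔪 := fun t ht => by
    rw [← hcomap] at ht
    exact ht
  refine ⟨g, 𝔪, hg, h𝔪, ?_, fun ℓ hℓ => ⟨χ (CuspForm.heckeAlgebra.T (hL ℓ hℓ).1 (hL ℓ hℓ).2
    (Set.notMem_empty ℓ)), (hgT ℓ (hL ℓ hℓ).1 (hL ℓ hℓ).2).symm, ?_⟩, ?_⟩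
  · have := hmem _ (hJJ' hpJ)
    rwa [map_natCast] at this
  · have := hmem _ (hJJ' (hTJ ℓ hℓ))
    rwa [map_sub, map_intCast] at this
  · have h1 : χ₀ (CuspForm.heckeAlgebra.U (Fact.out : q.Prime) (dvd_mul_left q N)
        (Set.notMem_empty q) ^ 2 - 1) = 0 := by
      have h := hP.1.2 U_sq_sub_one_mem_newAnnihilator
      rw [← hkerP] at h
      exact h
    rw [map_sub, map_pow, map_one, sub_eq_zero, ← hgU] at h1
    exact h1

end FermatLib.Modular.LevelRaising
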